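import Fermat.Agent.Ribet.H704.DetCyc
import Fermat.Agent.S13.H175.Minkowski
import Fermat.Prelude.Def_FreyPackage_DetCyclotomic

/-!
# RIBET pieces DETF and NMT (helper704)

* `detFrob : Spec.DetFrobStatement` — the determinant of a Frobenius at `q ≠ p` on the
  `p`-torsion of the Frey curve is `q`;
* `notMultiplicativeType : Spec.NotMultiplicativeTypeStatement` — inertia at `p` does not act
  on all of `E[p]` through the cyclotomic scalar;
* `frey_galoisRepDetEqCyclotomic` — the Prelude predicate `GaloisRepDetEqCyclotomic` for the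
  Frey curve;
* `exists_inertia_cycloChar_ne_one` — for `p ≥ 3` the inertia subgroup of EVERY valuation
  subring of `ℚ̄` over `p` acts nontrivially on the `p`-th roots of unity.

No Weil pairing and no irreducibility hypothesis: see `DetCyc.lean`.
-/

set_option autoImplicit false

open WeierstrassCurve WeierstrassCurve.Affine WeierstrassCurve.Affine.Point

namespace Fermat.Agent.Ribet.H704

open Fermat.Agent.Ribet.Spec (GQ FreyTorsion)
open ExtCitation

/-- A primitive `p`-th root of unity, `p` odd, `p > 1`, is moved by some element of `G_ℚ`. -/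
theorem exists_cycloChar_ne_one (p : ℕ) [Fact p.Prime] (hodd : Odd p) :
    ∃ σ : GQ, cycloChar p σ ≠ 1 := by
  have hp : p.Prime := Fact.out
  have : NeZero p := ⟨hp.ne_zero⟩
  have hgal := Fermat.Agent.S54.isGalois_algebraicClosure_rat
  by_contra H
  push Not at H
  have hfix : ∀ f : GQ, f (Fermat.Agent.S55.H414.zetaBar p) = Fermat.Agent.S55.H414.zetaBar p := by
    intro f
    have h1 := apply_root_eq_pow_cycloChar p f (Fermat.Agent.S55.H414.zetaBar p)
      (Fermat.Agent.S55.H414.zetaBar_spec p).pow_eq_one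
    rw [H f, Units.val_one, ZMod.val_one'' (by
      have := hp.two_le
      omega), pow_one] at h1
    exact h1
  obtain ⟨r, hr⟩ := (InfiniteGalois.mem_range_algebraMap_iff_fixed
    (k := ℚ) (K := AlgebraicClosure ℚ) _).mpr hfix
  have hrp : r ^ p = 1 := by
    apply (algebraMap ℚ (AlgebraicClosure ℚ)).injective
    rw [map_pow, hr, map_one]
    exact (Fermat.Agent.S55.H414.zetaBar_spec p).pow_eq_one
  have hr1 : r = 1 := by
    have hmono := hodd.strictMono_pow (R := ℚ)
    apply hmono.injective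
    show r ^ p = 1 ^ p
    rw [hrp, one_pow]
  have hz1 : Fermat.Agent.S55.H414.zetaBar p = 1 := by rw [← hr, hr1, map_one]
  exact (Fermat.Agent.S55.H414.zetaBar_spec p).ne_one hp.one_lt hz1

/-- **Inertia at `p` acts nontrivially on `μ_p`** (`p` odd): for every valuation subring `A` of
`ℚ̄` over `p` some element of the inertia subgroup of `A` has nontrivial mod `p` cyclotomic
character.  (Minkowski + the cyclotomic character is unramified outside `p`.) -/
theorem exists_inertia_cycloChar_ne_one (p : ℕ) [Fact p.Prime] (hodd : Odd p)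
    (A : ValuationSubring (AlgebraicClosure ℚ)) (hA : A.LiesOverPrime p) :
    ∃ σ ∈ A.inertiaSubgroupIn ℚ, cycloChar p σ ≠ 1 := by
  have hp : p.Prime := Fact.out
  have : NeZero p := ⟨hp.ne_zero⟩
  have hNopen : IsOpen ((cycloChar p).ker : Set GQ) := by
    have h1 := IntermediateField.fixingSubgroup_isOpen (Fermat.Agent.S55.H414.cycloLevel p)
    refine Subgroup.isOpen_mono ?_ h1
    intro σ hσ
    rw [MonoidHom.mem_ker]
    exact cycloChar_eq_one_of_fixes_cycloLevel p σ fun x hx =>
      (IntermediateField.mem_fixingSubgroup_iff _ σ).mp hσ x hx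
  have hNtop : (cycloChar p).ker ≠ ⊤ := by
    intro h
    obtain ⟨σ, hσ⟩ := exists_cycloChar_ne_one p hodd
    apply hσ
    have : σ ∈ (cycloChar p).ker := by rw [h]; trivial
    exact MonoidHom.mem_ker.mp this
  obtain ⟨q, hq, hqA⟩ :=
    Fermat.Agent.S13.H175.exists_inertia_not_fixing (cycloChar p).ker hNopen hNtop
  have hqp : q = p := by
    by_contra hne
    obtain ⟨A', hA'⟩ := Fermat.Agent.S54.exists_valuationSubring_liesOver q hq
    obtain ⟨σ, hσI, hσN⟩ := hqA A' hA'
    exact hσN (MonoidHom.mem_ker.mpr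
      (Fermat.Agent.S55.Bridge.cycloChar_eq_one_of_mem_inertia p hq hne A' hA' σ hσI))
  subst hqp
  obtain ⟨σ, hσI, hσN⟩ := hqA A hA
  exact ⟨σ, hσI, fun h => hσN (MonoidHom.mem_ker.mpr h)⟩

/-- **(DETF)** The determinant of a Frobenius at `q ≠ p` on `E[p]` is `q`. -/
theorem detFrob : Fermat.Agent.Ribet.Spec.DetFrobStatement := by
  intro P q hq hqp A hA φ hφ
  have : Fact P.p.Prime := ⟨P.pp⟩
  rw [frey_det_eq_cycloChar P φ, cycloChar_frob P.p hq hqp A hA φ hφ]

/-- **(NMT)** `E[p]` is not of multiplicative type at `p`. -/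
theorem notMultiplicativeType : Fermat.Agent.Ribet.Spec.NotMultiplicativeTypeStatement := by
  intro P A hA H
  have : Fact P.p.Prime := ⟨P.pp⟩
  have : NeZero P.p := ⟨P.pp.ne_zero⟩
  obtain ⟨σ, hσI, hσ⟩ := exists_inertia_cycloChar_ne_one P.p P.hp_odd A hA
  have hx := H σ hσI ((cycloChar P.p σ : (ZMod P.p)ˣ) : ZMod P.p).val
    (fun ζ hζ => apply_root_eq_pow_cycloChar P.p σ ζ hζ)
  obtain ⟨b⟩ := nonempty_basis_freyTorsion P
  have hdet := det_of_forall_smul b
    (galoisRepModuleEnd (S := ℚ) (K := AlgebraicClosure ℚ) P.freyCurve P.p σ)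
    ((cycloChar P.p σ : (ZMod P.p)ˣ) : ZMod P.p)
    (fun x => by
      rw [galoisRepModuleEnd_apply, hx x]
      conv_rhs => rw [← ZMod.natCast_zmod_val ((cycloChar P.p σ : (ZMod P.p)ˣ) : ZMod P.p)]
      exact (Nat.cast_smul_eq_nsmul (ZMod P.p) _ x).symm)
  rw [frey_det_eq_cycloChar P σ] at hdet
  -- `χ = χ²` with `χ` a unit
  apply hσ
  apply Units.ext
  rw [Units.val_one]
  have h1 : ((cycloChar P.p σ : (ZMod P.p)ˣ) : ZMod P.p) * 1
      = ((cycloChar P.p σ : (ZMod P.p)ˣ) : ZMod P.p) * ((cycloChar P.p σ : (ZMod P.p)ˣ) : ZMod P.p) := by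
    rw [mul_one, ← pow_two]
    exact hdet
  exact (mul_left_cancel₀ (Units.ne_zero _) h1).symm

/-- The Prelude predicate `GaloisRepDetEqCyclotomic` holds for the Frey curve. -/
theorem frey_galoisRepDetEqCyclotomic (P : FreyPackage) :
    haveI : NeZero P.p := ⟨P.pp.ne_zero⟩
    GaloisRepDetEqCyclotomic ℚ (K := AlgebraicClosure ℚ) P.freyCurve P.p
      P.card_rootsOfUnity_algebraicClosure := by
  have : Fact P.p.Prime := ⟨P.pp⟩
  intro σ
  apply Units.ext
  rw [galoisRepDet_apply]
  rw [LinearEquiv.coe_det]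
  exact frey_det_eq_cycloChar P σ

end Fermat.Agent.Ribet.H704
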