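/-
RIBET row 38, wall at p, crux (I6) / W-FLAT: the abstract PERIOD lemma (piece P-ALG + P-DESC of
`origin/helper704:coord/RIBET-I6-helper704.md`).  Mathlib only.

Setting (abstract): a field `F` (in the application `F = F'·K'`, the function field of the étale
`μ_p`-cover `X'_y` of `X₀(pM')` over the field of definition `K'` of `x`), two commuting
automorphisms `σ` (Galois, acts on constants) and `τ` (deck transformation, acts on functions), a
multiplicative "leading coefficient" map `lc` (evaluation at a rational point / leading coefficient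
of the `t`-expansion) commuting with `σ`.

Input : `τ f = f`, `σ f = f · c₀ · (h G)^p` with `σ h = h`, `τ h = ζ h`, `τ G = G`, `lc c₀ = c₀`.
Output: `f = lc f · f' · b^p` with `σ f' = f'` (descent of the class of `f` to the `σ`-fixed field),
and `τ f' = f' · ξ^p · G₁^p` with `σ G₁ = G₁` and a CONSTANT `ξ = lc ξ` with `σ ξ = ζ⁻¹ ξ`.
So `c := ξ^p` is `σ`-fixed, is not a `p`-th power of a `σ`-fixed element, and the constants `ξ` with
`σ ξ = ζ⁻¹ ξ` generate the field of definition: `c` is the "period" of `x`.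
-/
import Mathlib

namespace Fermat.Agent.Ribet.H704

open Finset

section Hilbert90

variable {F : Type*} [Field F]

/-- The partial norms `∏_{j<i} σ^j η`. -/
noncomputable def partialNorm704 (σ : F ≃+* F) (η : F) (i : ℕ) : F :=
  ∏ j ∈ range i, (σ ^ j) η

lemma partialNorm704_zero (σ : F ≃+* F) (η : F) : partialNorm704 σ η 0 = 1 := by
  simp [partialNorm704]

lemma partialNorm704_succ (σ : F ≃+* F) (η : F) (i : ℕ) :
    η * σ (partialNorm704 σ η i) = partialNorm704 σ η (i + 1) := by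
  unfold partialNorm704
  rw [map_prod, prod_range_succ']
  have : ∀ j ∈ range i, σ ((σ ^ j) η) = (σ ^ (j + 1)) η := by
    intro j _
    rw [pow_succ', RingAut.mul_apply]
  rw [prod_congr rfl this]
  simp [mul_comm]

/-- Powers `σ^i`, `i < p`, of an automorphism of prime order are pairwise distinct. -/
lemma pow_injective_of_prime704 {p : ℕ} (hp : p.Prime) (σ : F ≃+* F) (hσp : σ ^ p = 1)
    (hσ1 : σ ≠ 1) : Function.Injective (fun i : Fin p => σ ^ (i : ℕ)) := by
  have : Fact p.Prime := ⟨hp⟩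
  have hord : orderOf σ = p := orderOf_eq_prime hσp hσ1
  intro i j hij
  have h := pow_injOn_Iio_orderOf (x := σ)
  have hi : (i : ℕ) ∈ Set.Iio (orderOf σ) := by rw [hord]; exact i.2
  have hj : (j : ℕ) ∈ Set.Iio (orderOf σ) := by rw [hord]; exact j.2
  exact Fin.ext (h hi hj hij)

/-- **Hilbert 90** for an automorphism of prime order of a field (no algebra structure needed):
if `∏_{i<p} σ^i η = 1` then `η = b / σ b`, i.e. `η * σ b = b`, for some `b ≠ 0`. -/
theorem hilbert90_prime704 {p : ℕ} (hp : p.Prime) (σ : F ≃+* F) (hσp : σ ^ p = 1)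
    (hσ1 : σ ≠ 1) (η : F) (hη : partialNorm704 σ η p = 1) :
    ∃ b : F, b ≠ 0 ∧ η * σ b = b := by
  classical
  -- the operator `B θ = ∑_{i<p} c_i σ^i θ`
  set B : F → F := fun θ => ∑ i ∈ range p, partialNorm704 σ η i * (σ ^ i) θ with hB
  have hfix : ∀ θ, η * σ (B θ) = B θ := by
    intro θ
    simp only [hB]
    rw [map_sum, mul_sum]
    have h1 : ∀ i ∈ range p, η * σ (partialNorm704 σ η i * (σ ^ i) θ)
        = partialNorm704 σ η (i + 1) * (σ ^ (i + 1)) θ := by
      intro i _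
      rw [map_mul, ← mul_assoc, partialNorm704_succ, pow_succ', RingAut.mul_apply]
    rw [sum_congr rfl h1]
    have h2 := sum_range_succ' (fun i => partialNorm704 σ η i * (σ ^ i) θ) p
    have h3 := sum_range_succ (fun i => partialNorm704 σ η i * (σ ^ i) θ) p
    rw [h3] at h2
    simp only [partialNorm704_zero, pow_zero, RingAut.one_apply, one_mul, hη, hσp] at h2
    -- h2 : ∑_{i<p} c_i σ^i θ + θ = ∑_{i<p} c_{i+1} σ^{i+1} θ + θ
    exact (add_right_cancel h2).symm
  by_cases hex : ∃ θ, B θ ≠ 0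
  · obtain ⟨θ, hθ⟩ := hex
    exact ⟨B θ, hθ, hfix θ⟩
  · exfalso
    simp only [not_exists, not_not] at hex
    -- linear independence of the characters `σ^i`
    have hli := linearIndependent_monoidHom F F
    let χ : Fin p → (F →* F) := fun i => ((σ ^ (i : ℕ) : F ≃+* F) : F →+* F).toMonoidHom
    have hχinj : Function.Injective χ := by
      intro i j hij
      apply pow_injective_of_prime704 hp σ hσp hσ1
      apply RingEquiv.ext
      intro z
      have := DFunLike.congr_fun hij z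
      simpa [χ] using this
    have hli' := hli.comp χ hχinj
    rw [Fintype.linearIndependent_iff] at hli'
    have h0 := hli' (fun i => partialNorm704 σ η (i : ℕ)) (by
      funext θ
      have := hex θ
      simp only [hB] at this
      rw [← Fin.sum_univ_eq_sum_range (fun i => partialNorm704 σ η i * (σ ^ i) θ) p] at this
      simpa [χ, Finset.sum_apply] using this) ⟨0, hp.pos⟩
    simp [partialNorm704_zero] at h0

lemma partialNorm704_mul (σ : F ≃+* F) (a b : F) (i : ℕ) :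
    partialNorm704 σ (a * b) i = partialNorm704 σ a i * partialNorm704 σ b i := by
  simp [partialNorm704, prod_mul_distrib]

lemma partialNorm704_inv (σ : F ≃+* F) (a : F) (i : ℕ) :
    partialNorm704 σ a⁻¹ i = (partialNorm704 σ a i)⁻¹ := by
  simp [partialNorm704]

lemma partialNorm704_pow (σ : F ≃+* F) (a : F) (n i : ℕ) :
    partialNorm704 σ (a ^ n) i = (partialNorm704 σ a i) ^ n := by
  simp [partialNorm704, prod_pow]

/-- Telescoping: the partial norm of `σ a / a` is `σ^i a / a`. -/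
lemma partialNorm704_div (σ : F ≃+* F) (a : F) (ha : a ≠ 0) (i : ℕ) :
    partialNorm704 σ (σ a / a) i = (σ ^ i) a / a := by
  induction i with
  | zero => simp [partialNorm704_zero, ha]
  | succ i ih =>
    rw [← partialNorm704_succ, ih, map_div₀, pow_succ', RingAut.mul_apply]
    have h1 : σ a ≠ 0 := by simpa using ha
    field_simp

end Hilbert90

section Period

variable {F : Type*} [Field F]

/-- **The period lemma (P-ALG + P-DESC).**
`σ`, `τ` commuting automorphisms of a field, `σ` of prime order `p`, `lc` a multiplicative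
"leading coefficient" map (idempotent, commuting with `σ`, with `τ`-fixed values), `ζ` a primitive
`p`-th root of unity which is a constant.  If `τ f = f` and `σ f = f · c₀ · H^p` with `c₀` constant
and `τ H = ζ H`, then the class of `f` modulo constants and `p`-th powers descends to the `σ`-fixed
field (`f = lc f · f' · b^p`, `σ f' = f'`), and the deck transformation `τ` moves the descended
function `f'` by a PERIOD: `τ f' = f' · ξ^p · G₁^p`, with `G₁` fixed by `σ` and `ξ` a constant with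
`σ ξ = ζ⁻¹ ξ` (so `ξ^p` is `σ`-fixed, but `ξ` is not). -/
theorem period_exists704 {p : ℕ} (hp : p.Prime) (σ τ : F ≃+* F)
    (hcomm : ∀ z, σ (τ z) = τ (σ z)) (hσp : σ ^ p = 1) (hσ1 : σ ≠ 1)
    (ζ : F) (hζ : IsPrimitiveRoot ζ p)
    (lc : F →*₀ F) (hlc_idem : ∀ z, lc (lc z) = lc z)
    (hlcσ : ∀ z, lc (σ z) = σ (lc z)) (hτlc : ∀ z, τ (lc z) = lc z) (hlcζ : lc ζ = ζ)
    (f H c₀ : F) (hf : f ≠ 0) (hc₀ : lc c₀ = c₀)
    (hτf : τ f = f) (hτH : τ H = ζ * H)
    (hσf : σ f = f * c₀ * H ^ p) :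
    ∃ f' b ξ G₁ : F, f' ≠ 0 ∧ b ≠ 0 ∧ ξ ≠ 0 ∧ G₁ ≠ 0 ∧ σ f' = f' ∧ f = lc f * f' * b ^ p ∧
      lc ξ = ξ ∧ σ ξ = ζ⁻¹ * ξ ∧ σ G₁ = G₁ ∧ lc G₁ = 1 ∧ τ f' = f' * ξ ^ p * G₁ ^ p := by
  have hp0 : p ≠ 0 := hp.ne_zero
  have : NeZero p := ⟨hp0⟩
  have hζ0 : ζ ≠ 0 := hζ.ne_zero hp0
  have hσf0 : σ f ≠ 0 := by simpa using hf
  have hc₀0 : c₀ ≠ 0 := by
    rintro rfl; apply hσf0; rw [hσf]; simp
  have hH0 : H ≠ 0 := by
    rintro rfl; apply hσf0; rw [hσf]; simp [hp0]
  have hlc0 : ∀ z, z ≠ 0 → lc z ≠ 0 := fun z hz => by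
    simpa using hz
  have hlcf : lc f ≠ 0 := hlc0 f hf
  have hlcH : lc H ≠ 0 := hlc0 H hH0
  -- normalise
  set f₁ : F := f / lc f with hf₁
  set H₁ : F := H / lc H with hH₁
  have hf₁0 : f₁ ≠ 0 := div_ne_zero hf hlcf
  have hH₁0 : H₁ ≠ 0 := div_ne_zero hH0 hlcH
  have hlcH₁ : lc H₁ = 1 := by
    rw [hH₁, map_div₀, hlc_idem, div_self hlcH]
  have hσlcf : σ (lc f) = lc f * c₀ * lc H ^ p := by
    rw [← hlcσ, hσf, map_mul, map_mul, map_pow, hc₀]
  have hσf₁ : σ f₁ = f₁ * H₁ ^ p := by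
    rw [hf₁, hH₁, map_div₀, hσf, hσlcf, div_pow]
    field_simp
  -- the norm of `H₁` is one
  have hN : partialNorm704 σ H₁ p = 1 := by
    have h1 : (partialNorm704 σ H₁ p) ^ p = 1 := by
      rw [← partialNorm704_pow]
      have : H₁ ^ p = σ f₁ / f₁ := by rw [hσf₁]; field_simp
      rw [this, partialNorm704_div σ f₁ hf₁0, hσp, RingAut.one_apply, div_self hf₁0]
    obtain ⟨j, _, hj⟩ := hζ.eq_pow_of_pow_eq_one h1
    have h2 : lc (partialNorm704 σ H₁ p) = 1 := by
      unfold partialNorm704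
      rw [map_prod]
      apply prod_eq_one
      intro i _
      have : ∀ i : ℕ, lc ((σ ^ i) H₁) = 1 := by
        intro i
        induction i with
        | zero => simpa using hlcH₁
        | succ i ih => rw [pow_succ', RingAut.mul_apply, hlcσ, ih, map_one]
      exact this i
    rw [← hj, map_pow, hlcζ, hj] at h2
    exact h2
  have hN' : partialNorm704 σ H₁⁻¹ p = 1 := by
    rw [partialNorm704_inv, hN, inv_one]
  obtain ⟨b, hb0, hb⟩ := hilbert90_prime704 hp σ hσp hσ1 H₁⁻¹ hN'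
  have hσb : σ b = H₁ * b := by
    calc σ b = H₁ * (H₁⁻¹ * σ b) := by field_simp
      _ = H₁ * b := by rw [hb]
  have hτb0 : τ b ≠ 0 := by simpa using hb0
  -- the descended function
  set f' : F := f₁ / b ^ p with hf'
  have hf'0 : f' ≠ 0 := div_ne_zero hf₁0 (pow_ne_zero _ hb0)
  have hσf' : σ f' = f' := by
    rw [hf', map_div₀, map_pow, hσf₁, hσb, mul_pow]
    field_simp
  have hτf₁ : τ f₁ = f₁ := by
    rw [hf₁, map_div₀, hτf, hτlc]
  have hτH₁ : τ H₁ = ζ * H₁ := by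
    rw [hH₁, map_div₀, hτH, hτlc, mul_div_assoc]
  -- the quotient `w = b / τ b`
  set w : F := b / τ b with hw
  have hw0 : w ≠ 0 := div_ne_zero hb0 hτb0
  have hσw : σ w = ζ⁻¹ * w := by
    rw [hw, map_div₀, hcomm, hσb, map_mul, hτH₁]
    field_simp
  have hτf' : τ f' = f' * w ^ p := by
    rw [hf', map_div₀, map_pow, hτf₁, hw, div_pow]
    field_simp
  have hlcw0 : lc w ≠ 0 := hlc0 w hw0
  refine ⟨f', b, lc w, w / lc w, hf'0, hb0, hlcw0, div_ne_zero hw0 hlcw0, hσf', ?_,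
    hlc_idem w, ?_, ?_, ?_, ?_⟩
  · rw [hf', hf₁]; field_simp
  · rw [← hlcσ, hσw, map_mul, map_inv₀, hlcζ]
  · rw [map_div₀, ← hlcσ, hσw, map_mul, map_inv₀, hlcζ]
    field_simp
  · rw [map_div₀, hlc_idem, div_self hlcw0]
  · have h : lc w ^ p * (w / lc w) ^ p = w ^ p := by
      rw [← mul_pow, mul_div_cancel₀ _ hlcw0]
    rw [hτf', mul_assoc, h]

/-- **Period lemma, Kummer-generator form.**  With the hypotheses of `period_exists704`, for ANY
nonzero constant `u` with `σ u = ζ⁻¹ u` (a Kummer generator of the field of definition of `x`; in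
the application `K₁(E[p]) = K₁(u)`, `u^p ∈ K₁`), the descended function `f'` can be chosen with
`τ f' = f' · u^p · G₂^p`, `σ G₂ = G₂`.  Hence for every discrete valuation `v` of the `σ`-fixed
field with `p ∣ v (u^p)` ("peu ramifié"):  `v (τ f') ≡ v f'  mod p`. -/
theorem period_of_generator704 {p : ℕ} (hp : p.Prime) (σ τ : F ≃+* F)
    (hcomm : ∀ z, σ (τ z) = τ (σ z)) (hσp : σ ^ p = 1) (hσ1 : σ ≠ 1)
    (ζ : F) (hζ : IsPrimitiveRoot ζ p)
    (lc : F →*₀ F) (hlc_idem : ∀ z, lc (lc z) = lc z)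
    (hlcσ : ∀ z, lc (σ z) = σ (lc z)) (hτlc : ∀ z, τ (lc z) = lc z) (hlcζ : lc ζ = ζ)
    (f H c₀ : F) (hf : f ≠ 0) (hc₀ : lc c₀ = c₀)
    (hτf : τ f = f) (hτH : τ H = ζ * H)
    (hσf : σ f = f * c₀ * H ^ p)
    (u : F) (hu0 : u ≠ 0) (hσu : σ u = ζ⁻¹ * u) :
    ∃ f' b G₂ : F, f' ≠ 0 ∧ b ≠ 0 ∧ G₂ ≠ 0 ∧ σ f' = f' ∧ f = lc f * f' * b ^ p ∧
      σ G₂ = G₂ ∧ τ f' = f' * u ^ p * G₂ ^ p := by
  obtain ⟨f', b, ξ, G₁, hf'0, hb0, hξ0, hG₁0, hσf', hfb, -, hσξ, hσG₁, -, hτf'⟩ :=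
    period_exists704 hp σ τ hcomm hσp hσ1 ζ hζ lc hlc_idem hlcσ hτlc hlcζ f H c₀ hf hc₀
      hτf hτH hσf
  have hζ0 : ζ ≠ 0 := hζ.ne_zero hp.ne_zero
  refine ⟨f', b, ξ / u * G₁, hf'0, hb0, mul_ne_zero (div_ne_zero hξ0 hu0) hG₁0, hσf', hfb, ?_, ?_⟩
  · rw [map_mul, map_div₀, hσξ, hσu, hσG₁]
    field_simp
  · rw [hτf', mul_pow, div_pow]; field_simp

/-- The period is not a `p`-th power of a `σ`-fixed element: if `σ ξ = ζ⁻¹ ξ`, `ξ ≠ 0` and
`ξ^p = d^p` then `σ d ≠ d`. -/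
theorem period_not_pow704 {p : ℕ} (hp : p.Prime) (σ : F ≃+* F)
    (ζ : F) (hζ : IsPrimitiveRoot ζ p) (hσζ : σ ζ = ζ)
    (ξ d : F) (hξ0 : ξ ≠ 0) (hσξ : σ ξ = ζ⁻¹ * ξ) (hd : ξ ^ p = d ^ p) : σ d ≠ d := by
  intro hσd
  have hp0 : p ≠ 0 := hp.ne_zero
  have : NeZero p := ⟨hp0⟩
  have hζ0 : ζ ≠ 0 := hζ.ne_zero hp0
  have hd0 : d ≠ 0 := by
    rintro rfl
    rw [zero_pow hp0] at hd
    exact hξ0 (pow_eq_zero_iff hp0 |>.mp hd)
  have h1 : (ξ / d) ^ p = 1 := by rw [div_pow, hd, div_self (pow_ne_zero _ hd0)]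
  obtain ⟨j, _, hj⟩ := hζ.eq_pow_of_pow_eq_one h1
  have h2 : σ (ξ / d) = ξ / d := by rw [← hj, map_pow, hσζ]
  rw [map_div₀, hσξ, hσd] at h2
  have h3 : ζ⁻¹ * ξ = ξ := by
    field_simp at h2
    field_simp
    linear_combination h2
  have h4 : ζ⁻¹ = 1 := by
    have := mul_right_cancel₀ hξ0 (h3.trans (one_mul ξ).symm)
    exact this
  have h5 : ζ = 1 := by simpa using h4
  exact hζ.ne_one hp.one_lt h5

/-- **Kummer transfer.**  Two Kummer generators of the same cyclic extension differ by a power and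
a `σ`-fixed element: if `σ ξ = ζ⁻¹ ξ` and `σ η = ζ⁻¹^i η` then `η / ξ^i` is `σ`-fixed.  (So the
class of the period modulo `p`-th powers of the base field depends only on the Galois module, up to
an exponent.) -/
theorem kummer_transfer704 (σ : F ≃+* F) (ζ ξ η : F) (i : ℕ) (hζ0 : ζ ≠ 0) (hξ0 : ξ ≠ 0)
    (hσξ : σ ξ = ζ⁻¹ * ξ) (hση : σ η = (ζ⁻¹) ^ i * η) : σ (η / ξ ^ i) = η / ξ ^ i := by
  rw [map_div₀, map_pow, hσξ, hση, mul_pow]
  field_simp

end Period

end Fermat.Agent.Ribet.H704
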