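/-
# RIBET row 38, WALL-p, crux (I6) = (S4) of `H944.Wall.AtPFiltrationFor`:
# frozen LEAF STATEMENTS of the PERIOD package  (sub-architect helper704, v1 20:20Z)

Math: `origin/helper704:coord/RIBET-I6-helper704.md` (same proof, found independently:
`RIBET-I6-helper44.md`, `RIBET-WFLAT-helper375.md`, helper43, `RIBET-atp-helper884.md` §5,
`RIBET-WFLAT-helper640.md`, audit `RIBET-NODE-helper703.md`).

## The proof in one paragraph
`K₁ = K(ζ_p)` (tame), `F = K₁(X₀(pM'))`, chart `B`, components `p₁, p₂`, Gauss valuations `v₁, v₂`.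
`x ∈ V ∖ L`, `t ∈ L` (toric line), `σ x = x + t`, `K' = K₁(x) = K₁(u)`, `u^p ∈ K₁`, `σ u = ζ⁻¹ u`.
`f` = Kummer generator of `x` over `K'`, `f_t` of `t` over `K₁`.  By the assembly `f_t` is SPLIT
(a `p`-th power in both completions).  Cover `F' = F(h)`, `h^p = f_t`, deck transformation `τ`.
* PER  : `f = const · f' · b^p` with `f' ∈ F'` (over `K₁`!) and `τ f' = f' · u^p · G^p`.
* SHIFT: for every valuation `W` of `F'` over `v_i`:  `W(τ f') = W(f') + v(u^p) + p W(G)`;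
         peu ramifié (`p ∣ v(u^p)`) ⇒ `W(f') mod p` depends only on `i`, not on the sheet.
* COV  : the normalisation `B'` of `B` in `F'` is, locally at every point over a node of `B`,
         again a node (two branches, one over `p₁`, one over `p₂`, same uniformisers).
* NODE : two-function node relation in a node ring, THICKNESS-FREE: calibrate with the modular
         unit `D` (`D · D' = w^N`, `D ∉ p₁`, `D' ∉ p₂`, `N = 12(p-1)` prime to `p`):
         `N · ord₂(a) ≡ v₁(a) · ord₁(D)  mod p` for `a ∉ p₂` horizontally `p`-divisible.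
* Result (I6-core): the slope vector of `x` is a multiple of the slope vector of `D`; with
  `T_ℓ D = const · D^{ℓ+1}`, (I1) and NE (SLOPE package, helper884) the slopes of `x` vanish.

## Leaves (this file: Props only, Mathlib only; owners prove `theorem foo : FooStatement`)
| leaf | Prop | owners | status |
|---|---|---|---|
| PER   | `PeriodStatement`    | helper704 (`Period.lean`), 2nd copy helper44 | DONE (`period_proved` below) |
| SHIFT | `sheet_shift`        | helper704 | DONE (below) |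
| NODE  | `NodeRelStatement`   | helper403, helper463, helper703 | in progress (any equivalent shape + adapter) |
| ETNODE| `EtaleNodeStatement` | WANTED (2): étale local extension of a node ring is a node ring | open |
| WPUR  | `WildPurityStatement`| with I5 (helper103, helper43): split class ⇒ Artin–Schreier at a node | open |
| CORE  | `I6CoreStatement`    | helper704 (assembly, after NODE + ETNODE + WPUR) | open |
Files: `Fermat/Agent/Ribet/H<seat>/...`, land only complete proofs of a leaf VERBATIM.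
-/
import Fermat.Agent.Ribet.H704.Period

set_option autoImplicit false

namespace Fermat.Agent.Ribet.H704.I6

open Ideal

/-! ## Vocabulary: node rings and orders on the branches (elementwise, Mathlib only) -/

/-- `a` has order `s` on the branch `𝔭` with branch uniformiser `ϖ`:
`a ≡ unit · ϖ ^ s` in the discrete valuation ring `R ⧸ 𝔭`. -/
def OrdOn {R : Type*} [CommRing R] (𝔭 : Ideal R) (ϖ a : R) (s : ℕ) : Prop :=
  Associated (Ideal.Quotient.mk 𝔭 a) ((Ideal.Quotient.mk 𝔭 ϖ) ^ s)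

/-- `a` is horizontally `m`-divisible (H1 of `A2/H609`): at every prime `𝔓 ∌ π` through `a` the
order of `a` is a multiple of `m`. -/
def HorDiv {R : Type*} [CommRing R] (π : R) (m : ℕ) (a : R) : Prop :=
  ∀ 𝔓 : Ideal R, 𝔓.IsPrime → a ∈ 𝔓 → π ∉ 𝔓 → ∃ f r : R, r ∉ 𝔓 ∧ f ^ m = a * r

/-- `a` has no horizontal zero: every prime through `a` contains `π`. -/
def NoHorZero {R : Type*} [CommRing R] (π : R) (a : R) : Prop :=
  ∀ 𝔓 : Ideal R, 𝔓.IsPrime → a ∈ 𝔓 → π ∈ 𝔓

/-- The node data of `A2/H609/Node.lean`: two branches `𝔭₁, 𝔭₂` of the special fibre `π = 0`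
meeting transversally at the closed point, with branch uniformisers `x` (on `𝔭₁`, vanishing on
`𝔭₂`) and `y` (on `𝔭₂`, vanishing on `𝔭₁`).  No hypothesis on the thickness. -/
structure IsNode {R : Type*} [CommRing R] [IsLocalRing R] (𝔭₁ 𝔭₂ : Ideal R) (π x y : R) :
    Prop where
  prime₁ : 𝔭₁.IsPrime
  prime₂ : 𝔭₂.IsPrime
  inf_eq : 𝔭₁ ⊓ 𝔭₂ = Ideal.span {π}
  sup_eq : 𝔭₁ ⊔ 𝔭₂ = IsLocalRing.maximalIdeal R
  hx : x ∈ 𝔭₂
  hy : y ∈ 𝔭₁
  /-- `R ⧸ 𝔭₁` is a DVR with uniformiser `x`. -/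
  unif₁ : ∀ a : R, a ∉ 𝔭₁ → ∃ s : ℕ, OrdOn 𝔭₁ x a s
  /-- `R ⧸ 𝔭₂` is a DVR with uniformiser `y`. -/
  unif₂ : ∀ a : R, a ∉ 𝔭₂ → ∃ s : ℕ, OrdOn 𝔭₂ y a s
  hx₁ : x ∉ 𝔭₁
  hy₂ : y ∉ 𝔭₂
  /-- the branches are not points: `x`, `y` are not units modulo the branch. -/
  nonunit₁ : ¬ IsUnit (Ideal.Quotient.mk 𝔭₁ x)
  nonunit₂ : ¬ IsUnit (Ideal.Quotient.mk 𝔭₂ y)

/-- A calibrating unit pair at the node (the modular unit `Δ(z)/Δ(pz)` and its inverse, scaled):
`D · D' = π ^ N`, `div D = N · 𝔭₂`, `div D' = N · 𝔭₁`. -/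
structure IsUnitPair {R : Type*} [CommRing R] (𝔭₁ 𝔭₂ : Ideal R) (π D D' : R) (N : ℕ) : Prop where
  mul_eq : D * D' = π ^ N
  hD : D ∉ 𝔭₁
  hD' : D' ∉ 𝔭₂

/-! ## Leaf NODE: the two-function node relation (thickness-free) -/

/-- **NODE.**  In a normal noetherian local node ring with a unit pair `(D, D')` of exponent `N`
prime to `m`: if `a ∉ 𝔭₂` is horizontally `m`-divisible and has order `n₁` along `𝔭₁`
(`a · d = π ^ n₁ · c`, `c, d ∉ 𝔭₁`), then
`N · ord₂(a) ≡ n₁ · ord₁(D)  (mod m)`.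
(Both sides compute the length of `R ⧸ (a, D)` modulo `m`.) -/
def NodeRelStatement : Prop :=
  ∀ (R : Type) [CommRing R] [IsDomain R] [IsIntegrallyClosed R] [IsNoetherianRing R]
    [IsLocalRing R] (𝔭₁ 𝔭₂ : Ideal R) (π x y : R), IsNode 𝔭₁ 𝔭₂ π x y →
    ∀ (m N : ℕ), m ≠ 0 → Nat.Coprime N m → ∀ D D' : R, IsUnitPair 𝔭₁ 𝔭₂ π D D' N →
    ∀ (a c d : R) (n₁ : ℕ), a ∉ 𝔭₂ → c ∉ 𝔭₁ → d ∉ 𝔭₁ → a * d = π ^ n₁ * c → HorDiv π m a →
    ∀ s k : ℕ, OrdOn 𝔭₂ y a s → OrdOn 𝔭₁ x D k →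
      (m : ℤ) ∣ (N : ℤ) * s - (n₁ : ℤ) * k

/-- **NODE, exact form** (gives "thickness divides `N`"; optional): if `a` has no horizontal
zero, `N · ord₂(a) = n₁ · ord₁(D)`. -/
def NodeRelExactStatement : Prop :=
  ∀ (R : Type) [CommRing R] [IsDomain R] [IsIntegrallyClosed R] [IsNoetherianRing R]
    [IsLocalRing R] (𝔭₁ 𝔭₂ : Ideal R) (π x y : R), IsNode 𝔭₁ 𝔭₂ π x y →
    ∀ (N : ℕ) (D D' : R), 0 < N → IsUnitPair 𝔭₁ 𝔭₂ π D D' N →
    ∀ (a c d : R) (n₁ : ℕ), a ∉ 𝔭₂ → c ∉ 𝔭₁ → d ∉ 𝔭₁ → a * d = π ^ n₁ * c → NoHorZero π a →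
    ∀ s k : ℕ, OrdOn 𝔭₂ y a s → OrdOn 𝔭₁ x D k → N * s = n₁ * k

/-! ## Leaf PER (done) and SHIFT (done) -/

/-- **PER** = `period_of_generator704`, as a Prop. -/
def PeriodStatement : Prop :=
  ∀ (F : Type) [Field F] (p : ℕ), p.Prime → ∀ (σ τ : F ≃+* F),
    (∀ z, σ (τ z) = τ (σ z)) → σ ^ p = 1 → σ ≠ 1 →
    ∀ ζ : F, IsPrimitiveRoot ζ p →
    ∀ lc : F →*₀ F, (∀ z, lc (lc z) = lc z) → (∀ z, lc (σ z) = σ (lc z)) →
      (∀ z, τ (lc z) = lc z) → lc ζ = ζ →
    ∀ f H c₀ : F, f ≠ 0 → lc c₀ = c₀ → τ f = f → τ H = ζ * H → σ f = f * c₀ * H ^ p →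
    ∀ u : F, u ≠ 0 → σ u = ζ⁻¹ * u →
    ∃ f' b G₂ : F, f' ≠ 0 ∧ b ≠ 0 ∧ G₂ ≠ 0 ∧ σ f' = f' ∧ f = lc f * f' * b ^ p ∧
      σ G₂ = G₂ ∧ τ f' = f' * u ^ p * G₂ ^ p

theorem period_proved : PeriodStatement := by
  intro F _ p hp σ τ hcomm hσp hσ1 ζ hζ lc h1 h2 h3 h4 f H c₀ hf hc₀ hτf hτH hσf u hu0 hσu
  exact period_of_generator704 hp σ τ hcomm hσp hσ1 ζ hζ lc h1 h2 h3 h4 f H c₀ hf hc₀ hτf hτH
    hσf u hu0 hσu

/-- **SHIFT.**  `W` an additive valuation on the nonzero elements of the `σ`-fixed field (given as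
a function with `W (a b) = W a + W b`), `τ f' = f' · c · G ^ p` with `p ∣ W c` (peu ramifié):
then `W (τ f') ≡ W f'  (mod p)`. -/
theorem sheet_shift {F : Type*} [Field F] (p : ℕ) (W : F → ℤ)
    (hW : ∀ a b : F, a ≠ 0 → b ≠ 0 → W (a * b) = W a + W b)
    (τ : F ≃+* F) (f' c G : F) (hf' : f' ≠ 0) (hc : c ≠ 0) (hG : G ≠ 0)
    (hτ : τ f' = f' * c * G ^ p) (hpeu : (p : ℤ) ∣ W c) :
    (p : ℤ) ∣ W (τ f') - W f' := by
  have hpow : ∀ n : ℕ, W (G ^ n) = n * W G + (if n = 0 then W 1 else 0) := by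
    intro n
    induction n with
    | zero => simp
    | succ n ih =>
      rcases Nat.eq_zero_or_pos n with h0 | h0
      · subst h0; simp
      · rw [pow_succ, hW _ _ (pow_ne_zero _ hG) hG, ih]
        have : n ≠ 0 := h0.ne'
        simp only [this, if_false, Nat.succ_ne_zero]
        push_cast; ring
  have h1 : W (1 : F) = 0 := by
    have := hW 1 1 one_ne_zero one_ne_zero
    rw [one_mul] at this
    linarith
  rw [hτ, hW _ _ (mul_ne_zero hf' hc) (pow_ne_zero _ hG), hW _ _ hf' hc, hpow, h1]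
  obtain ⟨k, hk⟩ := hpeu
  refine ⟨k + W G, ?_⟩
  rw [hk]
  split_ifs <;> ring

/-! ## Leaf ETNODE + WPUR: the cover at a node -/

/-- **ETNODE.**  A local-étale extension of Artin–Schreier type of a node ring is a node ring.
`R ⊆ R'` local domains, `R' = R[Y]_{𝔫'}` with `Y` a root of a monic `P ∈ R[T]` whose derivative
`P'(Y)` is a unit of `R'`, trivial residue field extension.  Then `R'` is normal noetherian and
`(𝔭₁R', 𝔭₂R', π, x, y)` is a node of `R'` (same uniformisers). -/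
def EtaleNodeStatement : Prop :=
  ∀ (R R' : Type) [CommRing R] [IsDomain R] [IsIntegrallyClosed R] [IsNoetherianRing R]
    [IsLocalRing R] [CommRing R'] [IsDomain R'] [IsLocalRing R'] [Algebra R R']
    [IsLocalHom (algebraMap R R')] (𝔭₁ 𝔭₂ : Ideal R) (π x y : R), IsNode 𝔭₁ 𝔭₂ π x y →
    Function.Injective (algebraMap R R') →
    -- `R'` is a localisation of `R[Y]`, `Y` étale over `R`
    ∀ (Y : R') (P : Polynomial R), P.Monic → Polynomial.aeval Y P = 0 →
      IsUnit (Polynomial.aeval Y (Polynomial.derivative P)) →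
      (∀ z : R', ∃ (a : R') (s : R'), a ∈ Algebra.adjoin R ({Y} : Set R') ∧
        s ∈ Algebra.adjoin R ({Y} : Set R') ∧ IsUnit s ∧ z * s = a) →
      -- trivial residue extension
      (∀ z : R', ∃ r : R, z - algebraMap R R' r ∈ IsLocalRing.maximalIdeal R') →
      IsIntegrallyClosed R' ∧ IsNoetherianRing R' ∧
        IsNode (𝔭₁.map (algebraMap R R')) (𝔭₂.map (algebraMap R R')) (algebraMap R R' π)
          (algebraMap R R' x) (algebraMap R R' y)

/-- **WPUR (wild purity at a node).**  `R` a node ring over a DVR with uniformiser `π`,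
`λ = unit · π ^ e ∈ R` with `λ ^ (p - 1) = p · unit` (`λ = ζ - 1`), `g ∈ R ∖ (𝔭₁ ∪ 𝔭₂)` horizontally
`p`-divisible which is a `p`-th power in the `π`-adic completions of both branches
(`g ≡ h ^ p` modulo `π ^ k` in `R_{𝔭ᵢ}` for all `k`).  Then `g = d ^ p · s ^ p · (1 + λ ^ p z)`
with `s` a unit of `R`, `z ∈ R`, and `d ∈ Frac R` (here: `g · d₂ ^ p = d₁ ^ p · s ^ p · (1 + λ^p z)`).
Consequently `Y := (g^{1/p} d₂/(d₁ s) - 1)/λ` is a root of the Artin–Schreier type polynomial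
`((1 + λ T)^p - 1)/λ^p - z`, étale over `R`.
Proof sketch: purity at the node (`A2/H609 exists_unit_mul_pow_of_node`) gives `g = ε₀ f ^ p`;
`ε₀` is a `p`-th power on both branches, the two roots agree at the node (`p`-th roots are unique
in characteristic `p`), so they glue to a unit `s` of `R` (`R/π = R/𝔭₁ ×_k R/𝔭₂`);
then successive approximation below the Hensel bound `p e` and Hartogs (`A2/H849`). -/
def WildPurityStatement : Prop :=
  ∀ (R : Type) [CommRing R] [IsDomain R] [IsIntegrallyClosed R] [IsNoetherianRing R]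
    [IsLocalRing R] (𝔭₁ 𝔭₂ : Ideal R) (π x y : R), IsNode 𝔭₁ 𝔭₂ π x y →
    ∀ (p : ℕ), p.Prime → ∀ (lam ε η : R) (e : ℕ), IsUnit ε → lam ^ (p - 1) = (p : R) * ε →
      IsUnit η → 0 < e → lam = η * π ^ e →
    ∀ g : R, g ∉ 𝔭₁ → g ∉ 𝔭₂ → HorDiv π p g →
      (∀ k : ℕ, ∃ h r t : R, r ∉ 𝔭₁ ∧ g * r ^ p - h ^ p = π ^ k * t) →
      (∀ k : ℕ, ∃ h r t : R, r ∉ 𝔭₂ ∧ g * r ^ p - h ^ p = π ^ k * t) →
      ∃ d₁ d₂ s z : R, d₁ ≠ 0 ∧ d₂ ≠ 0 ∧ IsUnit s ∧
        g * d₂ ^ p = d₁ ^ p * s ^ p * (1 + lam ^ p * z)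

/-! ## CORE: the conclusion of the package, on the cover, over the tame field

Setting of CORE (all inside one field `F'` = function field of the cover over `K₁`):
* `ι` : the set of nodes of the chart of `X₀(pM')`;
* for each `e : ι` a subring `Rₑ ⊆ F'` (the local ring of the normalised chart of the cover at
  ONE chosen point over `e`), a node ring with branches `𝔭₁ e`, `𝔭₂ e`, the SAME `π`;
* `τ` the deck transformation; the branch valuation rings `(Rₑ)_{𝔭ᵢ e}` for varying `e` are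
  all conjugate under powers of `τ` (SHEETS: Galois is transitive on the primes over `pᵢ`);
* `D, D'` the unit pair (in every `Rₑ`, fixed by `τ`), `f'` horizontally `p`-divisible with
  `τ f' = f' · c · G ^ p`, `c` a constant with `p ∣ v(c)`.
Conclusion: `∃ δ, ∀ e, N · slopeₑ(f') ≡ δ · slopeₑ(D) (mod p)`.
The Lean form of CORE is frozen in v2 of this file, after the NODE owners have fixed the fraction
form of `NodeRelStatement` (`f'` is a fraction, not an element of `Rₑ`). -/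

end Fermat.Agent.Ribet.H704.I6
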