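/-
# RIBET row 38, WALL-p, crux (I6): SPEC v2 of the PERIOD package  (sub-architect helper704)

`I6Spec.lean` (v1, on main) froze the element forms of the leaves.  This file adds
* the FRACTION form of NODE (`NodeRelFracStatement`): the form the assembly consumes
  (`f'` is an element of the fraction field of the node ring, not of the ring);
* the PROVED core bookkeeping `i6core`: sheets + shift + node relation
  ⇒ the slope vector of `f'` is proportional to the slope vector of the calibrating unit `D`.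

Instantiation (who provides what):
* `ι`            : the nodes of the chart of `X₀(pM')` over the tame level `E₁ ∋ ζ_p`;
* for `e : ι`    : ONE point of the cover above `e`, its node ring `R'ₑ ⊆ F'` (WPUR + ETNODE),
                   `W₁ e`, `W₂ e` = the valuations of `F'` at the two branches of `R'ₑ`,
                   `S e` = slope along the branch `𝔭₂` (`SlopeAt`), `k e` = `ord₁ D` at `e`;
* `hsheet`       : Galois is transitive on the valuations of `F'` above `v₁`, `v₂` (Mathlib);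
* `hNR`          : `NodeRelFracStatement` in `R'ₑ`;
* `f'`, `c`, `G` : PER (`period_proved`), `c = u ^ p` with `p ∣ v(c)` (peu ramifié).
-/
import Fermat.Agent.Ribet.H704.I6Spec

set_option autoImplicit false

namespace Fermat.Agent.Ribet.H704.I6

open Ideal

section FracVocabulary

variable {R : Type*} [CommRing R] (K : Type*) [Field K] [Algebra R K]

/-- `u ∈ K = Frac R` has valuation `v` along the branch `𝔭` (uniformiser `π` of `R_𝔭`):
`u · b = π ^ v · a` with `a, b ∈ R ∖ 𝔭`. -/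
def ValAt (𝔭 : Ideal R) (π : R) (u : K) (v : ℤ) : Prop :=
  ∃ a b : R, a ∉ 𝔭 ∧ b ∉ 𝔭 ∧ u * algebraMap R K b = (algebraMap R K π) ^ v * algebraMap R K a

/-- `u ∈ K` has slope `s` along the branch `𝔭` at the closed point: after scaling by a power
of `π`, `u = a / b` with `a, b ∈ R ∖ 𝔭` and `s = ord(a mod 𝔭) - ord(b mod 𝔭)` (orders in the
discrete valuation ring `R ⧸ 𝔭` with uniformiser `y`). -/
def SlopeAt (𝔭 : Ideal R) (π y : R) (u : K) (s : ℤ) : Prop :=
  ∃ (v : ℤ) (a b : R) (i j : ℕ), a ∉ 𝔭 ∧ b ∉ 𝔭 ∧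
    u * algebraMap R K b = (algebraMap R K π) ^ v * algebraMap R K a ∧
    OrdOn 𝔭 y a i ∧ OrdOn 𝔭 y b j ∧ s = (i : ℤ) - (j : ℤ)

/-- `u ∈ K` is horizontally `m`-divisible: `u = a / b` with `a · b ^ (m - 1) = u · b ^ m`
horizontally `m`-divisible in `R`. -/
def HorDivFrac (π : R) (m : ℕ) (u : K) : Prop :=
  ∃ a b : R, b ≠ 0 ∧ u * algebraMap R K b = algebraMap R K a ∧ HorDiv π m (a * b ^ (m - 1))

end FracVocabulary

/-- **NODE, fraction form** (the form consumed by the assembly).  In a normal noetherian local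
node ring `R` with fraction field `K` and a unit pair `(D, D')` of exponent `N` prime to `m`:
for `u ∈ Kˣ` horizontally `m`-divisible, with valuations `v₁`, `v₂` along the two branches and
slope `s` along `𝔭₂`,
`N · s ≡ (v₁ - v₂) · ord₁(D)   (mod m)`. -/
def NodeRelFracStatement : Prop :=
  ∀ (R K : Type) [CommRing R] [IsDomain R] [IsIntegrallyClosed R] [IsNoetherianRing R]
    [IsLocalRing R] [Field K] [Algebra R K] [IsFractionRing R K]
    (𝔭₁ 𝔭₂ : Ideal R) (π x y : R), IsNode 𝔭₁ 𝔭₂ π x y →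
    ∀ (m N : ℕ), m ≠ 0 → Nat.Coprime N m → ∀ D D' : R, IsUnitPair 𝔭₁ 𝔭₂ π D D' N →
    ∀ (u : K), u ≠ 0 → HorDivFrac K π m u →
    ∀ (v₁ v₂ s : ℤ) (k : ℕ), ValAt K 𝔭₁ π u v₁ → ValAt K 𝔭₂ π u v₂ → SlopeAt K 𝔭₂ π y u s →
      OrdOn 𝔭₁ x D k → (m : ℤ) ∣ (N : ℤ) * s - (v₁ - v₂) * k

section Core

variable {F : Type*} [Field F]

/-- Iterating `τ f' = f' · c · G ^ p` with `τ c = c`. -/
theorem iterate_period (p : ℕ) (τ : F ≃+* F) (f' c G : F) (hτ : τ f' = f' * c * G ^ p)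
    (hτc : τ c = c) (j : ℕ) : ∃ H : F, (τ ^ j) f' = f' * c ^ j * H ^ p ∧ (G ≠ 0 → H ≠ 0) := by
  induction j with
  | zero => exact ⟨1, by simp, fun _ => one_ne_zero⟩
  | succ j ih =>
    obtain ⟨H, hH, hH0⟩ := ih
    refine ⟨G * τ H, ?_, fun hG => mul_ne_zero hG (by simpa using hH0 hG)⟩
    rw [pow_succ', RingAut.mul_apply, hH, map_mul, map_mul, map_pow, map_pow, hτ, hτc]
    ring

/-- An additive valuation on nonzero elements takes the value `n · W a` on `a ^ n`. -/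
theorem val_pow (W : F → ℤ) (hW : ∀ a b : F, a ≠ 0 → b ≠ 0 → W (a * b) = W a + W b)
    (a : F) (ha : a ≠ 0) (n : ℕ) : W (a ^ n) = n * W a := by
  have h1 : W (1 : F) = 0 := by
    have := hW 1 1 one_ne_zero one_ne_zero
    rw [one_mul] at this
    linarith
  induction n with
  | zero => simp [h1]
  | succ n ih =>
    rw [pow_succ, hW _ _ (pow_ne_zero _ ha) ha, ih]
    push_cast; ring

/-- **I6, core bookkeeping (PROVED).**  `W₁ e`, `W₂ e` the two branch valuations and `S e` the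
slope at (a point of the cover above) the node `e`; all `W₁ e` are conjugate under powers of the
deck transformation `τ`, and so are all `W₂ e` (sheets); the node relation holds at every `e`
with calibration `k e`; `τ f' = f' · c · G ^ p` with `c` a `τ`-fixed constant whose valuations
are divisible by `p` (peu ramifié).  Then the slopes of `f'` are proportional to the calibration:
`∃ δ, ∀ e, N · S e f' ≡ δ · k e (mod p)`. -/
theorem i6core (p N : ℕ) (τ : F ≃+* F) {ι : Type*} (W₁ W₂ S : ι → F → ℤ) (k : ι → ℤ)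
    (Hor : ι → F → Prop)
    (hW₁ : ∀ e (a b : F), a ≠ 0 → b ≠ 0 → W₁ e (a * b) = W₁ e a + W₁ e b)
    (hW₂ : ∀ e (a b : F), a ≠ 0 → b ≠ 0 → W₂ e (a * b) = W₂ e a + W₂ e b)
    (hsheet₁ : ∀ e e' : ι, ∃ j : ℕ, ∀ a : F, W₁ e' a = W₁ e ((τ ^ j) a))
    (hsheet₂ : ∀ e e' : ι, ∃ j : ℕ, ∀ a : F, W₂ e' a = W₂ e ((τ ^ j) a))
    (hNR : ∀ e (u : F), u ≠ 0 → Hor e u →
      (p : ℤ) ∣ (N : ℤ) * S e u - (W₁ e u - W₂ e u) * k e)
    (f' c G : F) (hf' : f' ≠ 0) (hc : c ≠ 0) (hG : G ≠ 0)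
    (hτ : τ f' = f' * c * G ^ p) (hτc : τ c = c)
    (hpeu₁ : ∀ e, (p : ℤ) ∣ W₁ e c) (hpeu₂ : ∀ e, (p : ℤ) ∣ W₂ e c)
    (hHor : ∀ e, Hor e f') :
    ∃ δ : ℤ, ∀ e, (p : ℤ) ∣ (N : ℤ) * S e f' - δ * k e := by
  classical
  -- valuations of `f'` do not depend on the sheet, modulo `p`
  have key : ∀ (W : F → ℤ), (∀ a b : F, a ≠ 0 → b ≠ 0 → W (a * b) = W a + W b) →
      (p : ℤ) ∣ W c → ∀ j : ℕ, (p : ℤ) ∣ W ((τ ^ j) f') - W f' := by
    intro W hW hpc j
    obtain ⟨H, hH, hH0⟩ := iterate_period p τ f' c G hτ hτc j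
    have hH0' := hH0 hG
    rw [hH, hW _ _ (mul_ne_zero hf' (pow_ne_zero _ hc)) (pow_ne_zero _ hH0'),
      hW _ _ hf' (pow_ne_zero _ hc), val_pow W hW c hc, val_pow W hW H hH0']
    obtain ⟨q, hq⟩ := hpc
    refine ⟨j * q + W H, ?_⟩
    rw [hq]; ring
  by_cases hι : Nonempty ι
  · obtain ⟨e₀⟩ := hι
    refine ⟨W₁ e₀ f' - W₂ e₀ f', fun e => ?_⟩
    obtain ⟨j₁, h₁⟩ := hsheet₁ e₀ e
    obtain ⟨j₂, h₂⟩ := hsheet₂ e₀ e
    have e1 : (p : ℤ) ∣ W₁ e f' - W₁ e₀ f' := by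
      rw [h₁ f']; exact key (W₁ e₀) (hW₁ e₀) (hpeu₁ e₀) j₁
    have e2 : (p : ℤ) ∣ W₂ e f' - W₂ e₀ f' := by
      rw [h₂ f']; exact key (W₂ e₀) (hW₂ e₀) (hpeu₂ e₀) j₂
    have e3 := hNR e f' hf' (hHor e)
    have : (N : ℤ) * S e f' - (W₁ e₀ f' - W₂ e₀ f') * k e
        = ((N : ℤ) * S e f' - (W₁ e f' - W₂ e f') * k e)
          + ((W₁ e f' - W₁ e₀ f') - (W₂ e f' - W₂ e₀ f')) * k e := by ring
    rw [this]
    exact dvd_add e3 (Dvd.dvd.mul_right (dvd_sub e1 e2) _)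
  · exact ⟨0, fun e => absurd ⟨e⟩ hι⟩

end Core

end Fermat.Agent.Ribet.H704.I6
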