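/-
# RIBET row 38, WALL-p, crux (I6) = (S4): SPEC v3 of the PERIOD package  (sub-architect helper704)

Leaves of v1/v2 (`I6Spec.lean`, `I6Core.lean`) — ALL DONE, on main:
PER/SHIFT/CORE (H704), NODE (`H403.nodeRel_403`, `nodeRelExact_403`, `nodeRelFrac_403`),
WPUR (`H524.wildPurity524`, `H7.wildPurity`), ETNODE (`H600.etaleNode`), INST-A (`H132.InstA`),
PEU (`H785.PeuWall`).

This file freezes the Mathlib-only leaves of the COVER part of the assembly (Props only):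

| leaf      | Prop                   | content |
|---|---|---|
| NODEVAL   | `NodeValStatement`     | branch valuations and slopes exist and are unique in a node ring |
| NODE-V    | `NodeRelValStatement`  | `NodeRelFracStatement` with horizontal divisibility in VALUATION form |
| SHEETS    | `SheetsStatement`      | two branch valuations of `F'` with the same restriction to `F` are conjugate |
| COVER-NODE| `CoverNodeStatement`   | WPUR + ETNODE: a node ring `R' ⊆ K(h)`, `h ^ p = g`, above a node ring `R` |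
| SPLIT-LOC | `SplitLocStatement`    | a split horizontally `p`-divisible `u ∈ Frac R` is `g · d ^ p`, `g` as in WPUR |

Owners prove `theorem foo : FooStatement` VERBATIM in `Fermat/Agent/Ribet/H<seat>/...`.
The assembly `CoverCore.lean` (helper704) consumes exactly these Props.
-/
import Fermat.Agent.Ribet.H704.I6Core

set_option autoImplicit false

namespace Fermat.Agent.Ribet.H704.I6

open Ideal

section Vocabulary

variable {R : Type*} [CommRing R] (K : Type*) [Field K] [Algebra R K]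

/-- Horizontal `m`-divisibility of `u ∈ K = Frac R` in VALUATION form (the form of
`H463.IsNode463.dvd_slope_left`): at every discrete valuation ring `V ⊇ R[1/π]` of `K`,
`u = unit · g ^ m`. -/
def HorDivVal (π : R) (m : ℕ) (u : K) : Prop :=
  ∀ V : ValuationSubring K, IsDiscreteValuationRing V →
    (∀ r : R, algebraMap R K r ∈ V) → (algebraMap R K π)⁻¹ ∈ V →
    ∃ g u₀ : K, u₀ ∈ V ∧ u₀⁻¹ ∈ V ∧ u = u₀ * g ^ m

/-- `u ∈ K` is a `p`-th power in the `π`-adic completion of `R_𝔭`: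
for every `k`, `u = h ^ p · (1 + π ^ k · t / r)` with `h ∈ K`, `r ∈ R ∖ 𝔭`, `t ∈ R`. -/
def SplitAt (𝔭 : Ideal R) (π : R) (p : ℕ) (u : K) : Prop :=
  ∀ k : ℕ, ∃ (h : K) (r t : R), r ∉ 𝔭 ∧
    u * algebraMap R K r = h ^ p * (algebraMap R K r + algebraMap R K π ^ k * algebraMap R K t)

end Vocabulary

/-! ## NODEVAL -/

/-- **NODEVAL.**  In a node ring the localisation at the branch `𝔭₂` is a discrete valuation ring
with uniformiser `π`, and the slope along `𝔭₂` is well defined: `ValAt` and `SlopeAt`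
(`I6Core.lean`) exist for every `u ≠ 0` and are unique.
(By symmetry of `IsNode` the same holds for `𝔭₁`, `x`.) -/
def NodeValStatement : Prop :=
  ∀ (R K : Type) [CommRing R] [IsDomain R] [IsIntegrallyClosed R] [IsNoetherianRing R]
    [IsLocalRing R] [Field K] [Algebra R K] [IsFractionRing R K]
    (𝔭₁ 𝔭₂ : Ideal R) (π x y : R), IsNode 𝔭₁ 𝔭₂ π x y →
    (∀ u : K, u ≠ 0 → ∃ v : ℤ, ValAt K 𝔭₂ π u v) ∧
    (∀ (u : K) (v v' : ℤ), ValAt K 𝔭₂ π u v → ValAt K 𝔭₂ π u v' → v = v') ∧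
    (∀ u : K, u ≠ 0 → ∃ s : ℤ, SlopeAt K 𝔭₂ π y u s) ∧
    (∀ (u : K) (s s' : ℤ), SlopeAt K 𝔭₂ π y u s → SlopeAt K 𝔭₂ π y u s' → s = s')

/-! ## NODE-V -/

/-- **NODE, valuation form**: `NodeRelFracStatement` with `HorDivVal` instead of `HorDivFrac`. -/
def NodeRelValStatement : Prop :=
  ∀ (R K : Type) [CommRing R] [IsDomain R] [IsIntegrallyClosed R] [IsNoetherianRing R]
    [IsLocalRing R] [Field K] [Algebra R K] [IsFractionRing R K]
    (𝔭₁ 𝔭₂ : Ideal R) (π x y : R), IsNode 𝔭₁ 𝔭₂ π x y →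
    ∀ (m N : ℕ), m ≠ 0 → Nat.Coprime N m → ∀ D D' : R, IsUnitPair 𝔭₁ 𝔭₂ π D D' N →
    ∀ (u : K), u ≠ 0 → HorDivVal K π m u →
    ∀ (v₁ v₂ s : ℤ) (k : ℕ), ValAt K 𝔭₁ π u v₁ → ValAt K 𝔭₂ π u v₂ → SlopeAt K 𝔭₂ π y u s →
      OrdOn 𝔭₁ x D k → (m : ℤ) ∣ (N : ℤ) * s - (v₁ - v₂) * k

/-! ## SHEETS -/

/-- **SHEETS.**  `F' / F` finite Galois with cyclic group generated by `τ`.  Two discrete
valuations of `F'` (given as branches `(R₁, 𝔮₁)`, `(R₂, 𝔮₂)` with the same uniformiser `ϖ ∈ F`;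
"`ValAt` exists" says that `(Rᵢ)_{𝔮ᵢ}` is a discrete valuation ring of `F'` with uniformiser `ϖ`)
which agree on `F` are conjugate under a power of `τ`. -/
def SheetsStatement : Prop :=
  ∀ (F F' : Type) [Field F] [Field F'] [Algebra F F'] [FiniteDimensional F F'] [IsGalois F F']
    (τ : F' ≃ₐ[F] F'), (∀ g : F' ≃ₐ[F] F', ∃ j : ℕ, g = τ ^ j) →
    ∀ (R₁ R₂ : Type) [CommRing R₁] [CommRing R₂] [Algebra R₁ F'] [Algebra R₂ F']
      [IsFractionRing R₁ F'] [IsFractionRing R₂ F']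
      (𝔮₁ : Ideal R₁) (𝔮₂ : Ideal R₂) (π₁ : R₁) (π₂ : R₂) (ϖ : F),
      algebraMap R₁ F' π₁ = algebraMap F F' ϖ → algebraMap R₂ F' π₂ = algebraMap F F' ϖ →
      𝔮₁.IsPrime → 𝔮₂.IsPrime → π₁ ∈ 𝔮₁ → π₂ ∈ 𝔮₂ →
      (∀ u : F', u ≠ 0 → ∃ v : ℤ, ValAt F' 𝔮₁ π₁ u v) →
      (∀ u : F', u ≠ 0 → ∃ v : ℤ, ValAt F' 𝔮₂ π₂ u v) →
      (∀ (a : F) (v : ℤ), a ≠ 0 →
        (ValAt F' 𝔮₁ π₁ (algebraMap F F' a) v ↔ ValAt F' 𝔮₂ π₂ (algebraMap F F' a) v)) →
      ∃ j : ℕ, ∀ (u : F') (v : ℤ), u ≠ 0 →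
        (ValAt F' 𝔮₂ π₂ u v ↔ ValAt F' 𝔮₁ π₁ ((τ ^ j) u) v)

/-! ## COVER-NODE -/

/-- **COVER-NODE.**  `R` a node ring with algebraically closed residue field, `K = Frac R`,
`g ∈ R` as in WPUR (`WildPurityStatement`), `L = K(h)` with `h ^ p = g`.  Then there is a node
ring `R' ⊆ L` above `R` (a localisation of `R[Y]`, `Y` a root of the Artin–Schreier type
polynomial of WPUR, at a maximal ideal): local, normal, noetherian, `Frac R' = L`, with the SAME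
`π, x, y` and branches `𝔭₁ R'`, `𝔭₂ R'` lying over `𝔭₁`, `𝔭₂`.
(`ζ ∈ R` a primitive `p`-th root of unity, `λ = ζ - 1`: so `[L : K] ∈ {1, p}`; if `h ∈ K` take
`R' = R`.) -/
def CoverNodeStatement : Prop :=
  ∀ (R K L : Type) [CommRing R] [IsDomain R] [IsIntegrallyClosed R] [IsNoetherianRing R]
    [IsLocalRing R] [Field K] [Algebra R K] [IsFractionRing R K] [Field L] [Algebra K L]
    [Algebra R L] [IsScalarTower R K L]
    (𝔭₁ 𝔭₂ : Ideal R) (π x y : R), IsNode 𝔭₁ 𝔭₂ π x y →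
    IsAlgClosed (IsLocalRing.ResidueField R) →
    ∀ (p : ℕ), p.Prime → ∀ ζ : R, IsPrimitiveRoot ζ p →
    ∀ (lam ε η : R) (e : ℕ), lam = ζ - 1 → IsUnit ε → lam ^ (p - 1) = (p : R) * ε →
      IsUnit η → 0 < e → lam = η * π ^ e →
    ∀ g : R, g ∉ 𝔭₁ → g ∉ 𝔭₂ → HorDiv π p g →
      (∀ k : ℕ, ∃ h r t : R, r ∉ 𝔭₁ ∧ g * r ^ p - h ^ p = π ^ k * t) →
      (∀ k : ℕ, ∃ h r t : R, r ∉ 𝔭₂ ∧ g * r ^ p - h ^ p = π ^ k * t) →
    ∀ h : L, h ^ p = algebraMap R L g → IntermediateField.adjoin K ({h} : Set L) = ⊤ →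
    ∃ (R' : Subalgebra R L) (_ : IsLocalRing R'),
      IsIntegrallyClosed R' ∧ IsNoetherianRing R' ∧ IsFractionRing R' L ∧
      IsNode (𝔭₁.map (algebraMap R R')) (𝔭₂.map (algebraMap R R')) (algebraMap R R' π)
        (algebraMap R R' x) (algebraMap R R' y) ∧
      (∀ a : R, algebraMap R R' a ∈ 𝔭₁.map (algebraMap R R') → a ∈ 𝔭₁) ∧
      (∀ a : R, algebraMap R R' a ∈ 𝔭₂.map (algebraMap R R') → a ∈ 𝔭₂)

/-! ## SPLIT-LOC -/

/-- **SPLIT-LOC.**  In a node ring `R` with `K = Frac R`: a horizontally `p`-divisible `u ∈ Kˣ`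
which is a `p`-th power in the completions of both branches is `u = g · d ^ p` with `d ∈ Kˣ` and
`g ∈ R ∖ (𝔭₁ ∪ 𝔭₂)` satisfying the hypotheses of WPUR.
(Write `u = a / b`; change `b` by elements of `𝔭₂ ∖ (𝔭₂⁽²⁾ ∪ 𝔭₁)`, `𝔭₁ ∖ (𝔭₁⁽²⁾ ∪ 𝔭₂)` until
`v₁(a b ^ (p-1)) = v₂(a b ^ (p-1)) = p c`; `g := a b ^ (p-1) / π ^ (p c) ∈ R` by Hartogs.) -/
def SplitLocStatement : Prop :=
  ∀ (R K : Type) [CommRing R] [IsDomain R] [IsIntegrallyClosed R] [IsNoetherianRing R]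
    [IsLocalRing R] [Field K] [Algebra R K] [IsFractionRing R K]
    (𝔭₁ 𝔭₂ : Ideal R) (π x y : R), IsNode 𝔭₁ 𝔭₂ π x y →
    ∀ (p : ℕ), p.Prime → ∀ u : K, u ≠ 0 → HorDivVal K π p u →
      SplitAt K 𝔭₁ π p u → SplitAt K 𝔭₂ π p u →
      ∃ (g : R) (d : K), d ≠ 0 ∧ u = algebraMap R K g * d ^ p ∧ g ∉ 𝔭₁ ∧ g ∉ 𝔭₂ ∧
        HorDiv π p g ∧
        (∀ k : ℕ, ∃ h r t : R, r ∉ 𝔭₁ ∧ g * r ^ p - h ^ p = π ^ k * t) ∧
        (∀ k : ℕ, ∃ h r t : R, r ∉ 𝔭₂ ∧ g * r ^ p - h ^ p = π ^ k * t)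

end Fermat.Agent.Ribet.H704.I6
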