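/-
# RIBET row 38, WALL-p, (S4): CORE-OUT = `H884.CoreOutStatement` — TOP decomposition
# (sub-architect helper704; FROZEN Props + PROVED glue)

Official W-EIS spec: `Ribet/H884/EisSpec.lean` (`SlopeProp`, `NodeGen`, `eisSlope_of`).
This file
* adds the hypothesis `NonEisAway p a` to CORE-OUT (`CoreOutNEStatement`; it is FREE for EIS:
  if the eigenvalues are Eisenstein off a finite set, `IsEisMod` is trivial because `p x = 0`),
  PROVED `eisSlope_of_coreOutNE`;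
* splits CORE-OUT into TAME (`x` fixed by `I₁ = {σ ∈ I : σ = 1 on μ_p}`) and WILD (`x` moved by
  some `σ₀ ∈ I₁`), PROVED `coreOutNE_of_tame_wild`;
* freezes the slope dictionary in PURE form (`DictPureStatement`): purity at every closed point
  of the special fibre of the FINITE chart `Bf = chartAlg (x)`, `x = j · j_p`, at ANY good level
  `E` ⟹ `H884.NodeGen` (the cusps are not in `Bf`; `NodeGen` ignores the cusps);
* freezes the Mathlib-only leaves of the WILD node argument: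
  `NodePureTameStatement` (A3), `PureDescentStatement` (A2), `CoverNode2Statement` (A5).

## WILD in one paragraph (levels `E₁ ⊆ E₂` good fields, `E₁` tame: `ζ_p ∈ E₁`, `e = p - 1`;
## `E₂ = E₁(u)`, `u` a unit, `u ^ p ∈ E₁`)
`f₂ ∈ F_{E₂}` Kummer generator of `x`, `f_t ∈ F_{E₁}` of `t`, strongly split; `L₁ = F_{E₁}(h)`,
`h ^ p = f_t`, `L₂ = F_{E₂}(h)`.  PER: `f₂ = lc · f' · b ^ p`, `f' ∈ L₁`, `τ f' = f' u^p G^p`.
Sheets + shift + peu ramifié: `W(f') mod p` depends only on the component ⟹ there is `i` with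
`v₁ ≡ v₂ (mod p)` for `u₁ := f' · D ^ i` at EVERY cover node ring `R' ⊆ L₁`.
At a crossing point `n₂` of the level-`E₂` chart, `n₁ = n₂ ∩ B₁`, `R₁ ⊆ R₂` the chart node rings,
`R' ⊆ R''` cover node rings over them (A5).  (A3): `u₁` is pure in `R'` (thickness prime to `p`).
Purity goes up along `R' → R''` (trivial), `f₂ D^i = lc · u₁ · b^p` is pure in `R''`, and purity
descends along `R₂ ⊆ R''` (A2).  Smooth points: UFD.  Then `DictPure` gives `NodeGen (f D^i)`.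
-/
import Fermat.Agent.Ribet.H884.EisSpec
import Fermat.Agent.Ribet.H704.I6Inst
import Fermat.Agent.A2.Mod.Asm
import Fermat.Agent.A2.Alg.Spec

set_option autoImplicit false
set_option synthInstance.maxHeartbeats 400000
set_option maxHeartbeats 1000000
set_option linter.unusedSectionVars false

noncomputable section

namespace Fermat.Agent.Ribet.H704.CoreOut

open AlgebraicCurve ModularCurve HahnSeries
open Fermat.Agent.S24 Fermat.Agent.A2.H708 Fermat.Agent.A2.H528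
open Fermat.Agent.Ribet.Spec Fermat.Agent.Ribet.H944.Wall Fermat.Agent.Ribet.H884
open Fermat.Agent.Ribet.H704

/-! ## TOP: CORE-OUT with the non-Eisenstein hypothesis, TAME / WILD -/

/-- **CORE-OUT with NE**: `H884.CoreOutStatement` with the additional hypothesis
`NonEisAway p a`. -/
def CoreOutNEStatement : Prop :=
  ∀ (p M' : ℕ) [NeZero M'] [NeZero p] [NeZero (p * M')], p.Prime → 5 ≤ p → ¬ p ∣ M' →
    ∀ A : ValuationSubring Kbar, A.LiesOverPrime p →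
    ∀ (S : Finset ℕ) (a : ℕ → ℤ), NonEisAway p a → ∀ x t : JZero (p * M'),
      IsNewTors p M' x → EigenAt (p * M') S a x →
      IsNewTors p M' t → EigenAt (p * M') S a t →
      (∀ σ ∈ A.inertiaSubgroupIn ℚ, ∀ c : ℕ, CycloAt p σ c → σ • t = c • t) →
      (∀ σ ∈ A.inertiaSubgroupIn ℚ, ∃ n : ℕ, σ • x = x + n • t) →
      (∀ σ : GQ, PeuFixes A p σ → σ • x = x) →
      SlopeProp p M' A x

/-- **TAME**: CORE-OUT for classes fixed by `I₁` (the inertia elements acting trivially on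
`μ_p`): `x` is defined over the tame level `K₁ = ℚ̄^{I₁}` (`e = p - 1`), no cover is needed. -/
def TameStatement : Prop :=
  ∀ (p M' : ℕ) [NeZero M'] [NeZero p] [NeZero (p * M')], p.Prime → 5 ≤ p → ¬ p ∣ M' →
    ∀ A : ValuationSubring Kbar, A.LiesOverPrime p →
    ∀ (S : Finset ℕ) (a : ℕ → ℤ), NonEisAway p a → ∀ x t : JZero (p * M'),
      IsNewTors p M' x → EigenAt (p * M') S a x →
      IsNewTors p M' t → EigenAt (p * M') S a t →
      (∀ σ ∈ A.inertiaSubgroupIn ℚ, ∀ c : ℕ, CycloAt p σ c → σ • t = c • t) →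
      (∀ σ ∈ A.inertiaSubgroupIn ℚ, ∃ n : ℕ, σ • x = x + n • t) →
      (∀ σ : GQ, PeuFixes A p σ → σ • x = x) →
      (∀ σ ∈ A.inertiaSubgroupIn ℚ, CycloAt p σ 1 → σ • x = x) →
      SlopeProp p M' A x

/-- **WILD**: CORE-OUT for classes moved by some `σ₀ ∈ I₁`. -/
def WildStatement : Prop :=
  ∀ (p M' : ℕ) [NeZero M'] [NeZero p] [NeZero (p * M')], p.Prime → 5 ≤ p → ¬ p ∣ M' →
    ∀ A : ValuationSubring Kbar, A.LiesOverPrime p →
    ∀ (S : Finset ℕ) (a : ℕ → ℤ), NonEisAway p a → ∀ x t : JZero (p * M'),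
      IsNewTors p M' x → EigenAt (p * M') S a x →
      IsNewTors p M' t → EigenAt (p * M') S a t →
      (∀ σ ∈ A.inertiaSubgroupIn ℚ, ∀ c : ℕ, CycloAt p σ c → σ • t = c • t) →
      (∀ σ ∈ A.inertiaSubgroupIn ℚ, ∃ n : ℕ, σ • x = x + n • t) →
      (∀ σ : GQ, PeuFixes A p σ → σ • x = x) →
      ∀ σ₀ ∈ A.inertiaSubgroupIn ℚ, CycloAt p σ₀ 1 → σ₀ • x ≠ x →
      SlopeProp p M' A x

/-- CORE-OUT (with NE) from TAME and WILD. -/
theorem coreOutNE_of_tame_wild (hT : TameStatement) (hW : WildStatement) :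
    CoreOutNEStatement := by
  intro p M' _ _ _ hp hp5 hpM A hA S a hNE x t hx hex ht het hχ hsh hpeu
  by_cases h : ∀ σ ∈ A.inertiaSubgroupIn ℚ, CycloAt p σ 1 → σ • x = x
  · exact hT p M' hp hp5 hpM A hA S a hNE x t hx hex ht het hχ hsh hpeu h
  · push Not at h
    obtain ⟨σ₀, hσ₀, hσ₀1, hσ₀x⟩ := h
    exact hW p M' hp hp5 hpM A hA S a hNE x t hx hex ht het hχ hsh hpeu σ₀ hσ₀ hσ₀1 hσ₀x

/-- If the eigenvalues are Eisenstein off a finite set, every `p`-torsion eigenclass has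
Eisenstein slopes (trivially: `T_ℓ x - (ℓ + 1) x = 0`). -/
theorem isEisMod_of_not_nonEis (p M' : ℕ) [NeZero (p * M')] (A : ValuationSubring Kbar)
    (S : Finset ℕ) (a : ℕ → ℤ) (hNE : ¬ NonEisAway p a) (x : JZero (p * M'))
    (hpx : p • x = 0) (heig : EigenAt (p * M') S a x) :
    ∃ S' : Finset ℕ, IsEisMod p M' A S' x := by
  unfold NonEisAway at hNE
  push Not at hNE
  obtain ⟨S₀, hS₀⟩ := hNE
  refine ⟨S ∪ S₀, fun ℓ hℓ => ?_⟩
  have hℓ1 : (ℓ : ℕ) ∉ S := fun h => hℓ (Finset.mem_union_left _ h)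
  have hℓ2 : (ℓ : ℕ) ∉ S₀ := fun h => hℓ (Finset.mem_union_right _ h)
  obtain ⟨k, hk⟩ := hS₀ ℓ ℓ.2 hℓ2
  rw [heig ℓ hℓ1]
  have e : a ℓ • x - ((ℓ : ℕ) + 1) • x = (a ℓ - ((ℓ : ℤ) + 1)) • x := by
    have h3 : ((ℓ : ℤ) + 1) = (((ℓ : ℕ) + 1 : ℕ) : ℤ) := by push_cast; ring
    rw [sub_smul, h3, natCast_zsmul]
  rw [e, hk, mul_smul, natCast_zsmul, smul_comm, hpx, smul_zero]
  exact (finPart p M' A).zero_mem

/-- **EIS from CORE-OUT with NE** and the other W-EIS leaves. -/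
theorem eisSlope_of_coreOutNE (hCO : CoreOutNEStatement) (hHF : HeckeFunStatement)
    (hHN : HeckeNodeGenStatement) (hU : UnitEisStatement) (hCP : CuspPurityStatement)
    (hRE : RedExistsStatement) (hRU : RedUniqueStatement) (hRF : RedFieldStatement) :
    EisSlopeStatement := by
  intro p M' _ _ _ hp hp5 hpM A hA S a x t hx hex ht het hχ hsh hpeu
  by_cases hNE : NonEisAway p a
  · exact ⟨(p * M').primeFactors,
      isEisMod_of_slopeProp hHF hHN hU hCP hRE hRU hRF p M' hp hpM A hA x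
        (hCO p M' hp hp5 hpM A hA S a hNE x t hx hex ht het hχ hsh hpeu)⟩
  · exact isEisMod_of_not_nonEis p M' A S a hNE x hx.1 hex

/-! ## DICT in PURE form (chart level, any good level `E`) -/

section Dict

open Fermat.Agent.A2.Mod

/-- `G ∈ F_{E}` (level `M' * p`) is **pure at the closed point `n`** of the finite chart
`Bf = chartAlg (x)`, `x = j · j_p`: `G = w ^ (-a) · ε · d ^ (-p)` with `ε` a unit of `(Bf)_n`
(`d` need not be a unit on the components). -/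
def PureAtPt (A : ValuationSubring Kbar) (E : IntermediateField ℚ Kbar) (M' p : ℕ) [NeZero M']
    [NeZero p] (w : RE A E) (G : FE E (M' * p))
    (n : Ideal (chartAlg A E (M' * p) (xE E M' p))) : Prop :=
  ∃ (d : FE E (M' * p)) (a : ℤ), d ≠ 0 ∧
    Fermat.Agent.A2.Alg.LocUnit (chartAlg A E (M' * p) (xE E M' p)) n
      (G * (cE A E (M' * p) w) ^ a * d ^ p)

/-- `G` is pure at every closed point of the special fibre of the finite chart. -/
def ChartPure (A : ValuationSubring Kbar) (E : IntermediateField ℚ Kbar) (M' p : ℕ) [NeZero M']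
    [NeZero p] (w : RE A E) (G : FE E (M' * p)) : Prop :=
  ∀ n : Ideal (chartAlg A E (M' * p) (xE E M' p)), n.IsMaximal →
    algebraMap (RE A E) (chartAlg A E (M' * p) (xE E M' p)) w ∈ n → PureAtPt A E M' p w G n

/-- **DICT (pure form).**  `E` a good level, `G ∈ F_E` of level `M' p` pure at every closed point
of the special fibre of the finite chart; then `G`, as an element of `FF (p * M')`
(same `t`-expansion), satisfies `H884.NodeGen`: both reductions lie in `k(X₀(M'))` and have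
`p`-divisible orders at the non-cuspidal places.
(Non-cuspidal places of `C∞`, `C₀` ↔ closed points of `Bf` on `p₁`, `p₂`: `x̄ = j̄^(p+1)` on `C∞`
and `x̄ = (w_{M'} j̄)^(p+1)` on `C₀`; `G w^a d^p = ε` gives `ρ(G₀) = ρ(ε) ρ(d₀)^(-p)` for the
reduction `ρ` on either component.  Core: `H280.PureFinCore`.) -/
def DictPureStatement : Prop :=
  ∀ (p M' : ℕ) [NeZero M'] [NeZero p] [NeZero (p * M')], p.Prime → ¬ p ∣ M' →
    ∀ (A : ValuationSubring Kbar), A.LiesOverPrime p →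
    ∀ (E : IntermediateField ℚ Kbar) (w : RE A E), Setting A E M' p w →
      Fermat.Agent.A2.GoodField A E →
    ∀ (G : FE E (M' * p)) (G' : FF (p * M')), G ≠ 0 →
      (G' : LaurentSeries Kbar) = coeffMap (algebraMap E Kbar) (G : LaurentSeries E) →
      ChartPure A E M' p w G → NodeGen p M' A G'

end Dict

/-! ## Mathlib-only leaves of the WILD node argument -/

section Abstract

open I6

/-- **(A3) NODE-PURE, tame thickness.**  Node ring with a unit pair of exponent `N` prime to `m`,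
`u ∈ Kˣ` horizontally `m`-divisible with `v₁(u) ≡ v₂(u) (mod m)`.  Then `u = π ^ a · ε · d ^ m`,
`ε ∈ Rˣ`.
(Normalise by `π ^ v₁` and a power of `z = π + x ^ 2` (`v₁ z = 0`, `v₂ z = 1`); then
`H403.nodeRelVal_403` gives `m ∣ slope`, and `H868.nodePure` concludes.) -/
def NodePureTameStatement : Prop :=
  ∀ (R K : Type) [CommRing R] [IsDomain R] [IsIntegrallyClosed R] [IsNoetherianRing R]
    [IsLocalRing R] [Field K] [Algebra R K] [IsFractionRing R K]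
    (𝔭₁ 𝔭₂ : Ideal R) (π x y : R), IsNode 𝔭₁ 𝔭₂ π x y →
    ∀ (m N : ℕ), m ≠ 0 → Nat.Coprime N m → ∀ D D' : R, IsUnitPair 𝔭₁ 𝔭₂ π D D' N →
    ∀ (u : K), u ≠ 0 → HorDivVal K π m u →
    ∀ (v₁ v₂ : ℤ), ValAt K 𝔭₁ π u v₁ → ValAt K 𝔭₂ π u v₂ → (m : ℤ) ∣ v₁ - v₂ →
      ∃ (d : K) (a : ℤ) (ε : R), d ≠ 0 ∧ IsUnit ε ∧
        u = algebraMap R K π ^ a * algebraMap R K ε * d ^ m

/-- **(A2) PURE-DESCENT.**  `R ⊆ R'` node rings as in the conclusion of `CoverNodeStatement`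
(`R' ⊆ L`, same `π, x, y`, branches `𝔭ᵢ R'` lying over `𝔭ᵢ`; ANY thickness).  A horizontally
`m`-divisible `u ∈ K = Frac R` which is pure in `R'` is pure in `R`.
(Purity in `R'` ⟹ valuations and slopes of `u` in `R'` are `≡ 0 (mod m)`; they are the
valuations and slopes in `R` (`H132.NodeVal`); normalise and apply `H868.nodePure_both`.) -/
def PureDescentStatement : Prop :=
  ∀ (R K L : Type) [CommRing R] [IsDomain R] [IsIntegrallyClosed R] [IsNoetherianRing R]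
    [IsLocalRing R] [Field K] [Algebra R K] [IsFractionRing R K] [Field L] [Algebra K L]
    [Algebra R L] [IsScalarTower R K L]
    (𝔭₁ 𝔭₂ : Ideal R) (π x y : R), IsNode 𝔭₁ 𝔭₂ π x y →
    ∀ (R' : Subalgebra R L) (_ : IsLocalRing R'),
      IsIntegrallyClosed R' → IsNoetherianRing R' → IsFractionRing R' L →
      IsNode (𝔭₁.map (algebraMap R R')) (𝔭₂.map (algebraMap R R')) (algebraMap R R' π)
        (algebraMap R R' x) (algebraMap R R' y) →
      (∀ a : R, algebraMap R R' a ∈ 𝔭₁.map (algebraMap R R') → a ∈ 𝔭₁) →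
      (∀ a : R, algebraMap R R' a ∈ 𝔭₂.map (algebraMap R R') → a ∈ 𝔭₂) →
    ∀ (m : ℕ), m ≠ 0 → ∀ u : K, u ≠ 0 → HorDivVal K π m u →
      (∃ (d : L) (a : ℤ) (ε : R'), d ≠ 0 ∧ IsUnit ε ∧
        algebraMap K L u = algebraMap R L π ^ a * (ε : L) * d ^ m) →
      ∃ (d : K) (a : ℤ) (ε : R), d ≠ 0 ∧ IsUnit ε ∧
        u = algebraMap R K π ^ a * algebraMap R K ε * d ^ m

/-- **(A5) COVER-NODE, two levels.**  `R₁ ⊆ R₂` node rings (the local rings of the charts of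
levels `E₁ ⊆ E₂` at a crossing point `n₂` and at `n₁ = n₂ ∩ B₁`), branches of `R₂` lying over the
branches of `R₁`; `g ∈ R₁` as in `CoverNodeStatement` at level `1`; `L₁ = K₁(h)`, `L₂ = K₂(h)`,
`h ^ p = g`.  Then there are node rings `R' ⊆ L₁` over `R₁` and `R'' ⊆ L₂` over `R₂`, both as in
the conclusion of `CoverNodeStatement`, with `R' ⊆ R''`.
(Same Artin–Schreier generator `Y` of `H524.wildPurity524` on both levels; `R'' = R₂[Y]_{𝔫₂}`,
`R' = R₁[Y]_{𝔫₁}`, `𝔫₁ = 𝔫₂ ∩ R₁[Y]`, which is maximal because it lies over the maximal ideal of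
`R₁` and `R₁[Y]` is integral over `R₁`; `H132.exists_nodeRing_of_etale` for a GIVEN maximal
ideal.) -/
def CoverNode2Statement : Prop :=
  ∀ (R₁ R₂ K₁ K₂ L₁ L₂ : Type)
    [CommRing R₁] [IsDomain R₁] [IsIntegrallyClosed R₁] [IsNoetherianRing R₁] [IsLocalRing R₁]
    [CommRing R₂] [IsDomain R₂] [IsIntegrallyClosed R₂] [IsNoetherianRing R₂] [IsLocalRing R₂]
    [Field K₁] [Algebra R₁ K₁] [IsFractionRing R₁ K₁]
    [Field K₂] [Algebra R₂ K₂] [IsFractionRing R₂ K₂]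
    [Field L₁] [Algebra K₁ L₁] [Algebra R₁ L₁] [IsScalarTower R₁ K₁ L₁]
    [Field L₂] [Algebra K₂ L₂] [Algebra R₂ L₂] [IsScalarTower R₂ K₂ L₂]
    [Algebra R₁ R₂] [Algebra L₁ L₂] [Algebra R₁ L₂] [IsScalarTower R₁ R₂ L₂]
    [IsScalarTower R₁ L₁ L₂]
    (𝔭₁ 𝔭₂ : Ideal R₁) (π₁ x₁ y₁ : R₁), IsNode 𝔭₁ 𝔭₂ π₁ x₁ y₁ →
    ∀ (𝔮₁ 𝔮₂ : Ideal R₂) (π₂ x₂ y₂ : R₂), IsNode 𝔮₁ 𝔮₂ π₂ x₂ y₂ →
    IsAlgClosed (IsLocalRing.ResidueField R₁) → IsAlgClosed (IsLocalRing.ResidueField R₂) →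
    Function.Injective (algebraMap R₁ R₂) →
    (∀ a : R₁, algebraMap R₁ R₂ a ∈ 𝔮₁ ↔ a ∈ 𝔭₁) →
    (∀ a : R₁, algebraMap R₁ R₂ a ∈ 𝔮₂ ↔ a ∈ 𝔭₂) →
    ∀ (p : ℕ), p.Prime → ∀ ζ : R₁, IsPrimitiveRoot ζ p →
    ∀ (lam ε η : R₁) (e : ℕ), lam = ζ - 1 → IsUnit ε → lam ^ (p - 1) = (p : R₁) * ε →
      IsUnit η → 0 < e → lam = η * π₁ ^ e →
    ∀ g : R₁, g ∉ 𝔭₁ → g ∉ 𝔭₂ → HorDiv π₁ p g →
      (∀ k : ℕ, ∃ h r t : R₁, r ∉ 𝔭₁ ∧ g * r ^ p - h ^ p = π₁ ^ k * t) →
      (∀ k : ℕ, ∃ h r t : R₁, r ∉ 𝔭₂ ∧ g * r ^ p - h ^ p = π₁ ^ k * t) →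
    ∀ h : L₁, h ^ p = algebraMap R₁ L₁ g → IntermediateField.adjoin K₁ ({h} : Set L₁) = ⊤ →
      IntermediateField.adjoin K₂ ({algebraMap L₁ L₂ h} : Set L₂) = ⊤ →
    ∃ (R' : Subalgebra R₁ L₁) (R'' : Subalgebra R₂ L₂) (_ : IsLocalRing R')
      (_ : IsLocalRing R''),
      (IsIntegrallyClosed R' ∧ IsNoetherianRing R' ∧ IsFractionRing R' L₁ ∧
        IsNode (𝔭₁.map (algebraMap R₁ R')) (𝔭₂.map (algebraMap R₁ R')) (algebraMap R₁ R' π₁)
          (algebraMap R₁ R' x₁) (algebraMap R₁ R' y₁) ∧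
        (∀ a : R₁, algebraMap R₁ R' a ∈ 𝔭₁.map (algebraMap R₁ R') → a ∈ 𝔭₁) ∧
        (∀ a : R₁, algebraMap R₁ R' a ∈ 𝔭₂.map (algebraMap R₁ R') → a ∈ 𝔭₂)) ∧
      (IsIntegrallyClosed R'' ∧ IsNoetherianRing R'' ∧ IsFractionRing R'' L₂ ∧
        IsNode (𝔮₁.map (algebraMap R₂ R'')) (𝔮₂.map (algebraMap R₂ R'')) (algebraMap R₂ R'' π₂)
          (algebraMap R₂ R'' x₂) (algebraMap R₂ R'' y₂) ∧
        (∀ a : R₂, algebraMap R₂ R'' a ∈ 𝔮₁.map (algebraMap R₂ R'') → a ∈ 𝔮₁) ∧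
        (∀ a : R₂, algebraMap R₂ R'' a ∈ 𝔮₂.map (algebraMap R₂ R'') → a ∈ 𝔮₂)) ∧
      ∀ z : L₁, z ∈ R' → algebraMap L₁ L₂ z ∈ R''

end Abstract

end Fermat.Agent.Ribet.H704.CoreOut
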