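/-
# RIBET row 38, WALL-p, (S4) CORE-OUT, WILD half: frozen interface + PROVED top glue
# (sub-architect helper704)

`WildStatement` (`CoreOutSpec.lean`) ⟸ `WildFrameStatement` (INST: Galois + model side)
                                      + `WildChartStatement` (chart geometry, Mathlib + A2 only)
                                      + `SmoothPureStatement` (purity at the smooth points)
                                      + `DictPureStatement`  (`CoreOutSpec.lean`).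

## The frame
Level `E₂ = E₁(u)` (wild, `e(E₂ / E₁) = p`), `K₂ = F_{E₂}` with its finite chart `B₂`, components
`c₂`; `f₂ ∈ K₂` a Kummer generator of `x`, `D₂ = Δ(t)/Δ(t^p) ∈ K₂`.  A `WildFrame` over these data
consists of
* the TAME level `O₁ ⊆ E₁` (`ζ_p ∈ O₁`), `K₁ = F_{E₁}`, chart `B₁`, components `c₁`, compatible
  with level `2` (`B₁ → B₂`, `c₂.pᵢ ∩ B₁ = c₁.pᵢ`, `w₁ = η · w₂ ^ e`);
* the unit pair `D · D' = w₁ ^ N`, `gcd (N, p) = 1`, `D ∉ p₁`, `D' ∉ p₂`, `D ↦ D₂`;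
* `f_t ∈ K₁` horizontally `p`-divisible and DEEP SPLIT (`I6.SplitAt` along both components of
  `B₁`), the covers `L₁ = K₁(h) ⊆ L₂ = K₂(h)`, `h ^ p = f_t`, `τ` a generator of `Gal(L₁ / K₁)`;
* the output of PER: `f' ∈ L₁`, horizontally `p`-divisible, `τ f' = f' · c · G ^ p` with `c` a
  unit of `O₁` (peu ramifié), and `f₂ = lc · f' · b ^ p` in `L₂`, `lc` a nonzero constant.

## The chart theorem (WILD-CHART)
For a frame: `∃ i, ∀` crossing point `n` of `B₂`: `f₂ · D₂ ^ i` is pure at `n`.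
Proof plan (all leaves on main or frozen in `CoreOutSpec.lean`):
`n₁ = n ∩ B₁`; node rings `R₁ ⊆ R₂` (`H132.InstA`), `g` from `H399.splitLoc`, cover node rings
`R' ⊆ R''` (`CoverNode2Statement`); branch valuations of all cover node rings are `τ`-conjugate
(`H873.sheets`), `W (τ f') ≡ W f'` (`I6.sheet_shift`), so `δ = W₁ f' - W₂ f' mod p` is global;
`i := δ / N`; `u₁ = f' D ^ i` is pure in `R'` (`NodePureTameStatement`), hence in `R''`, hence
`f₂ D₂ ^ i = lc · u₁ · b ^ p` is pure in `R''`, hence in `R₂` (`PureDescentStatement`).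
-/
import Fermat.Agent.Ribet.H704.CoreOutSpec

set_option autoImplicit false
set_option synthInstance.maxHeartbeats 400000
set_option maxHeartbeats 1000000
set_option linter.unusedSectionVars false
set_option linter.style.haveILetI false

noncomputable section

namespace Fermat.Agent.Ribet.H704.CoreOut

open AlgebraicCurve ModularCurve HahnSeries
open Fermat.Agent.S24 Fermat.Agent.A2.H708 Fermat.Agent.A2.H528
open Fermat.Agent.Ribet.Spec Fermat.Agent.Ribet.H944.Wall Fermat.Agent.Ribet.H884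
open Fermat.Agent.Ribet.H704 Fermat.Agent.A2

/-! ## Purity at a closed point of an abstract chart -/

/-- `G` is pure at the closed point `n` of the chart `B` (exponent `m`):
`G · w ^ a · d ^ m` is a unit of `B_n`. -/
def PureAtChart {R F : Type*} [CommRing R] [Field F] [Algebra R F] (w : R) (B : Subalgebra R F)
    (m : ℕ) (G : F) (n : Ideal B) : Prop :=
  ∃ (d : F) (a : ℤ), d ≠ 0 ∧ Alg.LocUnit B n (G * (algebraMap R F w) ^ a * d ^ m)

/-! ## The frame -/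

/-- The data of the WILD case above the level-`2` chart `(O₂, E₂, K₂, w₂, B₂, c₂)`, the Kummer
generator `f₂` and the modular unit `D₂`. -/
structure WildFrame (p : ℕ) (O₂ E₂ K₂ : Type) [CommRing O₂] [Field E₂] [Algebra O₂ E₂]
    [Field K₂] [Algebra E₂ K₂] [Algebra O₂ K₂] (w₂ : O₂) (B₂ : Subalgebra O₂ K₂)
    (c₂ : SSChart w₂ B₂) (f₂ D₂ : K₂) : Type 1 where
  /-- the tame level -/
  O₁ : Type
  E₁ : Type
  /-- the function field over the tame level -/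
  K₁ : Type
  /-- the cover over the tame level -/
  L₁ : Type
  /-- the cover over the wild level -/
  L₂ : Type
  [commRingO₁ : CommRing O₁]
  [isDomainO₁ : IsDomain O₁]
  [dvrO₁ : IsDiscreteValuationRing O₁]
  [fieldE₁ : Field E₁]
  [charZeroE₁ : CharZero E₁]
  [algO₁E₁ : Algebra O₁ E₁]
  [fracO₁E₁ : IsFractionRing O₁ E₁]
  [fieldK₁ : Field K₁]
  [algE₁K₁ : Algebra E₁ K₁]
  [algO₁K₁ : Algebra O₁ K₁]
  [towerO₁E₁K₁ : IsScalarTower O₁ E₁ K₁]
  [fieldL₁ : Field L₁]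
  [algK₁L₁ : Algebra K₁ L₁]
  [algE₁L₁ : Algebra E₁ L₁]
  [towerE₁K₁L₁ : IsScalarTower E₁ K₁ L₁]
  [finK₁L₁ : FiniteDimensional K₁ L₁]
  [galK₁L₁ : IsGalois K₁ L₁]
  [fieldL₂ : Field L₂]
  [algK₂L₂ : Algebra K₂ L₂]
  [algO₁O₂ : Algebra O₁ O₂]
  [algK₁K₂ : Algebra K₁ K₂]
  [algL₁L₂ : Algebra L₁ L₂]
  [algK₁L₂ : Algebra K₁ L₂]
  [towerK₁K₂L₂ : IsScalarTower K₁ K₂ L₂]
  [towerK₁L₁L₂ : IsScalarTower K₁ L₁ L₂]
  [algO₁K₂ : Algebra O₁ K₂]
  [towerO₁O₂K₂ : IsScalarTower O₁ O₂ K₂]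
  [towerO₁K₁K₂ : IsScalarTower O₁ K₁ K₂]
  /-- the residue field of the tame level is algebraically closed -/
  algClosed₁ : IsAlgClosed (IsLocalRing.ResidueField O₁)
  /-- uniformiser of the tame level -/
  w₁ : O₁
  /-- coordinate of the tame chart -/
  x₁ : K₁
  /-- the finite chart at the tame level -/
  B₁ : Subalgebra O₁ K₁
  ctx₁ : Alg.ChartCtx E₁ w₁ x₁ B₁
  /-- the components of the tame chart -/
  c₁ : SSChart w₁ B₁
  /-- `B₁ → B₂` -/
  map_mem : ∀ b ∈ B₁, algebraMap K₁ K₂ b ∈ B₂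
  /-- the components of level `2` lie over the components of level `1` -/
  comp₁ : ∀ (b : B₁) (b' : B₂), (b' : K₂) = algebraMap K₁ K₂ (b : K₁) → (b' ∈ c₂.p₁ ↔ b ∈ c₁.p₁)
  comp₂ : ∀ (b : B₁) (b' : B₂), (b' : K₂) = algebraMap K₁ K₂ (b : K₁) → (b' ∈ c₂.p₂ ↔ b ∈ c₁.p₂)
  /-- `w₁ = η · w₂ ^ e` -/
  unif : ∃ (η : O₂) (e : ℕ), IsUnit η ∧ 0 < e ∧ algebraMap O₁ O₂ w₁ = η * w₂ ^ e
  /-- residue characteristic `p`, and `ζ_p` at the tame level -/
  hp_mem : (p : O₁) ∈ IsLocalRing.maximalIdeal O₁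
  ζ : O₁
  hζ : IsPrimitiveRoot ζ p
  /-- the unit pair -/
  N : ℕ
  D : B₁
  D' : B₁
  hN : Nat.Coprime N p
  hDD : D * D' = algebraMap O₁ B₁ w₁ ^ N
  hD : D ∉ c₁.p₁
  hD' : D' ∉ c₁.p₂
  hD₂ : D₂ = algebraMap K₁ K₂ (D : K₁)
  /-- the Kummer generator of `t`: horizontally `p`-divisible and deep split -/
  ft : K₁
  hft0 : ft ≠ 0
  hft_div : DivisibleDiv E₁ p ft
  hft_split₁ : I6.SplitAt K₁ c₁.p₁ (algebraMap O₁ B₁ w₁) p ft
  hft_split₂ : I6.SplitAt K₁ c₁.p₂ (algebraMap O₁ B₁ w₁) p ft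
  /-- the covers -/
  h : L₁
  hh : h ^ p = algebraMap K₁ L₁ ft
  hadj₁ : IntermediateField.adjoin K₁ ({h} : Set L₁) = ⊤
  hadj₂ : IntermediateField.adjoin K₂ ({algebraMap L₁ L₂ h} : Set L₂) = ⊤
  /-- the deck transformation -/
  τ : L₁ ≃ₐ[K₁] L₁
  hτ : ∀ g : L₁ ≃ₐ[K₁] L₁, ∃ j : ℕ, g = τ ^ j
  /-- the output of PER -/
  f' : L₁
  G : L₁
  c : O₁
  hf' : f' ≠ 0
  hG : G ≠ 0
  hc : IsUnit c
  hper : τ f' = f' * algebraMap K₁ L₁ (algebraMap O₁ K₁ c) * G ^ p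
  hf'_div : DivisibleDiv E₁ p f'
  lc : E₂
  b : L₂
  hlc : lc ≠ 0
  hb : b ≠ 0
  hf₂ : algebraMap K₂ L₂ f₂ = algebraMap K₂ L₂ (algebraMap E₂ K₂ lc) * algebraMap L₁ L₂ f' * b ^ p

/-! ## Leaves -/

/-- **WILD-CHART** (chart geometry; Mathlib + A2 + I6 leaves only).  Over a semistable chart
`B₂` of the wild level, for a frame: there is ONE exponent `i` such that `f₂ · D₂ ^ i` is pure at
every crossing point of `B₂`. -/
def WildChartStatement : Prop :=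
  ∀ (p : ℕ) (O₂ E₂ K₂ : Type) [CommRing O₂] [IsDomain O₂] [IsDiscreteValuationRing O₂]
    [Field E₂] [CharZero E₂] [Algebra O₂ E₂] [IsFractionRing O₂ E₂]
    [Field K₂] [Algebra E₂ K₂] [Algebra O₂ K₂] [IsScalarTower O₂ E₂ K₂]
    (w₂ : O₂) (x₂ : K₂) (B₂ : Subalgebra O₂ K₂) (c₂ : SSChart w₂ B₂) (f₂ D₂ : K₂),
    p.Prime → IsAlgClosed (IsLocalRing.ResidueField O₂) → Alg.ChartCtx E₂ w₂ x₂ B₂ →
    f₂ ≠ 0 → DivisibleDiv E₂ p f₂ →
    WildFrame p O₂ E₂ K₂ w₂ B₂ c₂ f₂ D₂ →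
    ∃ i : ℕ, ∀ n : Ideal B₂, n.IsMaximal → c₂.p₁ ≤ n → c₂.p₂ ≤ n →
      PureAtChart w₂ B₂ p (f₂ * D₂ ^ i) n

/-- **SMOOTH-PURE** (purity at the smooth points of the special fibre; Mathlib + A2 only).
At a closed point `n` of the special fibre lying on only one component, `B_n` is regular of
dimension `2` (`B_n / w` is a discrete valuation ring), hence factorial: every `G ∈ Fˣ`
horizontally `m`-divisible on `Spec B[1/w]` is pure at `n`.
(Core: `A2.H754.PuritySmooth`, `H247.DictPure`.) -/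
def SmoothPureStatement : Prop :=
  ∀ (R E F : Type) [CommRing R] [IsDomain R] [IsDiscreteValuationRing R]
    [Field E] [CharZero E] [Algebra R E] [IsFractionRing R E]
    [Field F] [Algebra E F] [Algebra R F] [IsScalarTower R E F]
    (w : R) (x : F) (B : Subalgebra R F) (c : SSChart w B), Alg.ChartCtx E w x B →
    ∀ (m : ℕ), m ≠ 0 → ∀ G : F, G ≠ 0 → I6.HorDivVal (R := B) F (algebraMap R B w) m G →
    ∀ n : Ideal B, n.IsMaximal → algebraMap R B w ∈ n → ¬ (c.p₁ ≤ n ∧ c.p₂ ≤ n) →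
      PureAtChart w B m G n

/-- **WILD-FRAME** (INST: levels + Kummer generators + deep splitting + PER + model).
Under the hypotheses of WILD there are a good level `E₂` (`= E₁(u)`), the semistable finite chart
of level `M' p` over it, a Kummer generator `f` of `x` defined over `E₂`, the modular unit
`D = Δ(t^p)/Δ(t)` (`D₂ = D⁻¹ = Δ(t)/Δ(t^p)` over `E₂`), and a frame above them. -/
def WildFrameStatement : Prop :=
  ∀ (p M' : ℕ) [NeZero M'] [NeZero p] [NeZero (p * M')], p.Prime → 5 ≤ p → ¬ p ∣ M' →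
    ∀ A : ValuationSubring Kbar, A.LiesOverPrime p →
    ∀ (S : Finset ℕ) (a : ℕ → ℤ), NonEisAway p a → ∀ x t : JZero (p * M'),
      IsNewTors p M' x → EigenAt (p * M') S a x →
      IsNewTors p M' t → EigenAt (p * M') S a t →
      (∀ σ ∈ A.inertiaSubgroupIn ℚ, ∀ c : ℕ, CycloAt p σ c → σ • t = c • t) →
      (∀ σ ∈ A.inertiaSubgroupIn ℚ, ∃ n : ℕ, σ • x = x + n • t) →
      (∀ σ : GQ, PeuFixes A p σ → σ • x = x) →
      ∀ σ₀ ∈ A.inertiaSubgroupIn ℚ, CycloAt p σ₀ 1 → σ₀ • x ≠ x →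
      ∃ (E₂ : IntermediateField ℚ Kbar) (w₂ : Mod.RE A E₂)
        (c₂ : SSChart w₂ (Mod.chartAlg A E₂ (M' * p) (Mod.xE E₂ M' p)))
        (f₂ D₂ : Mod.FE E₂ (M' * p)) (f D : FF (p * M')),
        Mod.Setting A E₂ M' p w₂ ∧ GoodField A E₂ ∧
        Alg.ChartCtx E₂ w₂ (Mod.xE E₂ M' p) (Mod.chartAlg A E₂ (M' * p) (Mod.xE E₂ M' p)) ∧
        IsKummerGen (p * M') p f x ∧
        (f : LaurentSeries Kbar) = coeffMap (algebraMap E₂ Kbar) (f₂ : LaurentSeries E₂) ∧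
        f₂ ≠ 0 ∧ DivisibleDiv E₂ p f₂ ∧
        IsModUnit p M' D ∧ D ≠ 0 ∧
        (D : LaurentSeries Kbar) * coeffMap (algebraMap E₂ Kbar) (D₂ : LaurentSeries E₂) = 1 ∧
        Nonempty (WildFrame p (Mod.RE A E₂) E₂ (Mod.FE E₂ (M' * p)) w₂
          (Mod.chartAlg A E₂ (M' * p) (Mod.xE E₂ M' p)) c₂ f₂ D₂)

/-! ## Glue -/

/-- In a discrete valuation ring `O` with fraction field `E`, a subring `V` of an `E`-algebra
containing `O` and the inverse of a uniformiser contains `E`. -/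
theorem algebraMap_mem_of_inv_unif {O E F : Type*} [CommRing O] [IsDomain O]
    [IsDiscreteValuationRing O] [Field E] [Algebra O E] [IsFractionRing O E] [Field F]
    [Algebra E F] [Algebra O F] [IsScalarTower O E F] {w : O} (hw : Irreducible w)
    (V : ValuationSubring F) (hO : ∀ r : O, algebraMap O F r ∈ V)
    (hwV : (algebraMap O F w)⁻¹ ∈ V) (e : E) : algebraMap E F e ∈ V := by
  obtain ⟨a, b, hb, rfl⟩ := IsFractionRing.div_surjective (A := O) e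
  have hb0 : b ≠ 0 := nonZeroDivisors.ne_zero hb
  obtain ⟨k, u, hu⟩ := IsDiscreteValuationRing.eq_unit_mul_pow_irreducible hb0 hw
  rw [map_div₀, ← IsScalarTower.algebraMap_apply, ← IsScalarTower.algebraMap_apply, hu,
    map_mul, map_pow, div_eq_mul_inv, mul_inv, ← inv_pow]
  refine V.mul_mem _ _ (hO a) (V.mul_mem _ _ ?_ (pow_mem hwV k))
  have h1 : algebraMap O F (u : O) * algebraMap O F ((u⁻¹ : Oˣ) : O) = 1 := by
    rw [← map_mul]; simp
  have : (algebraMap O F (u : O))⁻¹ = algebraMap O F ((u⁻¹ : Oˣ) : O) :=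
    inv_eq_of_mul_eq_one_right h1
  rw [this]
  exact hO _

/-- The modular unit of a frame is a unit of every valuation ring containing the chart `B₂` and
the inverse of the uniformiser. -/
theorem WildFrame.unit_mem {p : ℕ} {O₂ E₂ K₂ : Type} [CommRing O₂] [Field E₂] [Algebra O₂ E₂]
    [Field K₂] [Algebra E₂ K₂] [Algebra O₂ K₂] {w₂ : O₂} {B₂ : Subalgebra O₂ K₂}
    {c₂ : SSChart w₂ B₂} {f₂ D₂ : K₂} (W : WildFrame p O₂ E₂ K₂ w₂ B₂ c₂ f₂ D₂)
    (V : ValuationSubring K₂) (hB : ∀ b : B₂, (b : K₂) ∈ V)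
    (hwV : (algebraMap O₂ K₂ w₂)⁻¹ ∈ V) (hw₂0 : algebraMap O₂ K₂ w₂ ≠ 0) :
    D₂ ∈ V ∧ D₂⁻¹ ∈ V := by
  letI := W.commRingO₁
  letI := W.fieldE₁
  letI := W.algO₁E₁
  letI := W.fieldK₁
  letI := W.algE₁K₁
  letI := W.algO₁K₁
  letI := W.algO₁O₂
  letI := W.algK₁K₂
  letI := W.algO₁K₂
  haveI := W.towerO₁O₂K₂
  haveI := W.towerO₁K₁K₂
  have hO : ∀ r : O₂, algebraMap O₂ K₂ r ∈ V := fun r => hB (algebraMap O₂ B₂ r)
  obtain ⟨η, e, hη, -, hηe⟩ := W.unif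
  obtain ⟨η', hηη'⟩ := hη.exists_right_inv
  -- the image of `w₁` is a unit of `V`
  have hw₁ : algebraMap W.O₁ K₂ W.w₁ = algebraMap O₂ K₂ η * algebraMap O₂ K₂ w₂ ^ e := by
    rw [IsScalarTower.algebraMap_apply W.O₁ O₂ K₂, hηe, map_mul, map_pow]
  have hη1 : algebraMap O₂ K₂ η * algebraMap O₂ K₂ η' = 1 := by
    rw [← map_mul, hηη', map_one]
  have hw₁inv : (algebraMap W.O₁ K₂ W.w₁)⁻¹ ∈ V := by
    rw [hw₁, mul_inv, inv_eq_of_mul_eq_one_right hη1, ← inv_pow]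
    exact V.mul_mem _ _ (hO η') (pow_mem hwV e)
  -- the relation `D₂ · D'₂ = w₁ ^ N`
  have hrel : algebraMap W.K₁ K₂ (W.D : W.K₁) * algebraMap W.K₁ K₂ (W.D' : W.K₁) =
      algebraMap W.O₁ K₂ W.w₁ ^ W.N := by
    have h0 := congrArg (fun b : W.B₁ => algebraMap W.K₁ K₂ (b : W.K₁)) W.hDD
    simp only [MulMemClass.coe_mul, SubmonoidClass.coe_pow, map_mul, map_pow] at h0
    rw [h0, IsScalarTower.algebraMap_apply W.O₁ W.K₁ K₂]
    rfl
  have hD₂V : D₂ ∈ V := by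
    have h := hB ⟨_, W.map_mem _ W.D.2⟩
    have e : D₂ = algebraMap W.K₁ K₂ (W.D : W.K₁) := W.hD₂
    rw [e]
    exact h
  have hD'V : algebraMap W.K₁ K₂ (W.D' : W.K₁) ∈ V := hB ⟨_, W.map_mem _ W.D'.2⟩
  refine ⟨hD₂V, ?_⟩
  have hw₁0 : algebraMap W.O₁ K₂ W.w₁ ≠ 0 := by
    rw [hw₁]
    refine mul_ne_zero ?_ (pow_ne_zero _ hw₂0)
    intro h1
    rw [h1, zero_mul] at hη1
    exact zero_ne_one hη1
  have hDne : algebraMap W.K₁ K₂ (W.D : W.K₁) ≠ 0 := by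
    intro h0
    rw [h0, zero_mul] at hrel
    exact pow_ne_zero _ hw₁0 hrel.symm
  have key : (algebraMap W.K₁ K₂ (W.D : W.K₁))⁻¹ =
      algebraMap W.K₁ K₂ (W.D' : W.K₁) * ((algebraMap W.O₁ K₂ W.w₁)⁻¹) ^ W.N := by
    rw [inv_pow, ← hrel]
    have hD'ne : algebraMap W.K₁ K₂ (W.D' : W.K₁) ≠ 0 := by
      intro h0
      rw [h0, mul_zero] at hrel
      exact pow_ne_zero _ hw₁0 hrel.symm
    field_simp
  have hinv : D₂⁻¹ = algebraMap W.K₁ K₂ (W.D' : W.K₁) * ((algebraMap W.O₁ K₂ W.w₁)⁻¹) ^ W.N :=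
    (congrArg (fun z => z⁻¹) W.hD₂).trans key
  rw [hinv]
  exact V.mul_mem _ _ hD'V (pow_mem hw₁inv _)

/-- **WILD from its leaves.** -/
theorem wild_of (hF : WildFrameStatement) (hC : WildChartStatement) (hSm : SmoothPureStatement)
    (hDict : DictPureStatement) : WildStatement := by
  intro p M' _ _ _ hp hp5 hpM A hA S a hNE x t hx hex ht het hχ hsh hpeu σ₀ hσ₀ hσ₀1 hσ₀x
  obtain ⟨E₂, w₂, c₂, f₂, D₂, f, D, hSet, hGood, hctx, hfK, hfe, hf₂0, hdiv, hDm, hD0, hDD₂,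
    ⟨W⟩⟩ := hF p M' hp hp5 hpM A hA S a hNE x t hx hex ht het hχ hsh hpeu σ₀ hσ₀ hσ₀1 hσ₀x
  haveI : IsDiscreteValuationRing (Mod.RE A E₂) := hSet.dvr
  have halg : IsAlgClosed (IsLocalRing.ResidueField (Mod.RE A E₂)) := hGood.algClosed
  obtain ⟨i, hi⟩ := hC p (Mod.RE A E₂) E₂ (Mod.FE E₂ (M' * p)) w₂ (Mod.xE E₂ M' p)
    (Mod.chartAlg A E₂ (M' * p) (Mod.xE E₂ M' p)) c₂ f₂ D₂ hp halg hctx hf₂0 hdiv W
  -- `D₂ ≠ 0`
  have hD₂0 : D₂ ≠ 0 := by
    rintro rfl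
    have h0 : ((0 : Mod.FE E₂ (M' * p)) : LaurentSeries E₂) = 0 := rfl
    rw [h0, map_zero, mul_zero] at hDD₂
    exact zero_ne_one hDD₂
  have hG₂0 : f₂ * D₂ ^ i ≠ 0 := mul_ne_zero hf₂0 (pow_ne_zero _ hD₂0)
  have hw₂0 : algebraMap (Mod.RE A E₂) (Mod.FE E₂ (M' * p)) w₂ ≠ 0 := by
    have hw0 : w₂ ≠ 0 := hSet.unif.ne_zero
    intro h0
    apply hw0
    have h1 : algebraMap E₂ (Mod.FE E₂ (M' * p)) (w₂ : E₂) = 0 := h0
    have h2 : (w₂ : E₂) = 0 := by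
      rwa [map_eq_zero_iff _ (algebraMap E₂ (Mod.FE E₂ (M' * p))).injective] at h1
    exact Subtype.ext h2
  -- purity at every closed point of the special fibre
  have hpure : ChartPure A E₂ M' p w₂ (f₂ * D₂ ^ i) := by
    intro n hn hwn
    by_cases hcr : c₂.p₁ ≤ n ∧ c₂.p₂ ≤ n
    · exact hi n hn hcr.1 hcr.2
    · refine hSm (Mod.RE A E₂) E₂ (Mod.FE E₂ (M' * p)) w₂ (Mod.xE E₂ M' p)
        (Mod.chartAlg A E₂ (M' * p) (Mod.xE E₂ M' p)) c₂ hctx p hp.ne_zero (f₂ * D₂ ^ i) hG₂0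
        ?_ n hn hwn hcr
      intro V hV hBV hwV
      have hBV' : ∀ b : Mod.chartAlg A E₂ (M' * p) (Mod.xE E₂ M' p),
          (b : Mod.FE E₂ (M' * p)) ∈ V := hBV
      have hwV' : (algebraMap (Mod.RE A E₂) (Mod.FE E₂ (M' * p)) w₂)⁻¹ ∈ V := hwV
      have hE : ∀ e : E₂, algebraMap E₂ (Mod.FE E₂ (M' * p)) e ∈ V :=
        algebraMap_mem_of_inv_unif hSet.unif V
          (fun r => hBV' (algebraMap (Mod.RE A E₂) _ r)) hwV'
      obtain ⟨g, u, hg0, hu, hu', hfu⟩ := hdiv V hV hE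
      obtain ⟨hDV, hDV'⟩ := W.unit_mem V hBV' hwV' hw₂0
      refine ⟨g, u * D₂ ^ i, V.mul_mem _ _ hu (pow_mem hDV i), ?_, ?_⟩
      · rw [mul_inv, ← inv_pow]
        exact V.mul_mem _ _ hu' (pow_mem hDV' i)
      · rw [hfu]; ring
  -- the function over `ℚ̄`
  have hDinv : coeffMap (algebraMap E₂ Kbar) (D₂ : LaurentSeries E₂) =
      ((D⁻¹ : FF (p * M')) : LaurentSeries Kbar) := by
    have h1 : ((D⁻¹ : FF (p * M')) : LaurentSeries Kbar) = (D : LaurentSeries Kbar)⁻¹ := rfl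
    rw [h1]
    exact eq_inv_of_mul_eq_one_right hDD₂
  have hG' : ((f * D⁻¹ ^ i : FF (p * M')) : LaurentSeries Kbar) =
      coeffMap (algebraMap E₂ Kbar) ((f₂ * D₂ ^ i : Mod.FE E₂ (M' * p)) : LaurentSeries E₂) := by
    have h1 : ((f * D⁻¹ ^ i : FF (p * M')) : LaurentSeries Kbar) =
        (f : LaurentSeries Kbar) * ((D⁻¹ : FF (p * M')) : LaurentSeries Kbar) ^ i := rfl
    have h2 : ((f₂ * D₂ ^ i : Mod.FE E₂ (M' * p)) : LaurentSeries E₂) =
        (f₂ : LaurentSeries E₂) * (D₂ : LaurentSeries E₂) ^ i := rfl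
    rw [h1, h2, map_mul, map_pow, ← hfe, hDinv]
  have hNG : NodeGen p M' A (f * D⁻¹ ^ i) :=
    hDict p M' hp hpM A hA E₂ w₂ hSet hGood (f₂ * D₂ ^ i) (f * D⁻¹ ^ i) hG₂0 hG' hpure
  refine ⟨f, D, f * D⁻¹ ^ i, 1, 0, i, hfK, hDm, hD0, ?_, ?_, hNG⟩
  · intro h
    have := Nat.le_of_dvd Nat.one_pos h
    omega
  · rw [pow_one, pow_zero, mul_one, inv_pow, mul_assoc, inv_mul_cancel₀ (pow_ne_zero _ hD0),
      mul_one]

/-- **CORE-OUT (with NE) from the leaves of TAME and WILD.** -/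
theorem coreOutNE_of_leaves (hT : TameStatement) (hF : WildFrameStatement)
    (hC : WildChartStatement) (hSm : SmoothPureStatement) (hDict : DictPureStatement) :
    CoreOutNEStatement :=
  coreOutNE_of_tame_wild hT (wild_of hF hC hSm hDict)

end Fermat.Agent.Ribet.H704.CoreOut
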