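/-
# RIBET row 38, WALL-p, (S4) CORE-OUT, WILD: the LAST open leaf of `WildFrameStatement` besides
# DEEP-SPLIT — **KD** (Kummer data), FROZEN in AMBIENT form (sub-architect helper704)

Everything else is on main: LEVEL (`H944.Tame.exists_wildLevel`), 2-LEVEL MODEL (`H279.TwoLevel`,
`H49.TLM`), INST-B with expansions (`H463.UnitExp`, `H464`, `H873.UnitPairCoe`, `H277`),
the cover shell + PER (`H819.PerAsm`: `PerCtx.ofKummer`, `shell_period_BC`), HOR-DESC
(`H769`, `H652`, `H127`), the frame plumbing (`H712.FrameTypes`), LC-CONST (`H944.LcConst`).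

`KDStatement` is EXACTLY the input of `H819.PerCtx.ofKummer` + `H819.PerCtx.shell_period_BC`
(with `σ₀ := σ₁`, `c.ζ := ζ⁻¹`) and of `H703.deepSplit_frame`:

in the setting of WILD, `(σ₁, u)` ANY output of `H944.Tame.exists_wildLevel`
(`E₁ = tameLevel A ζ`, `E₂ = wildLevel A ζ u = E₁(u)`), there are
* `ft ∈ F_{E₁}`: leading coefficient `1`, `p ∣ order`, its expansion is a Kummer generator of
  `t`, not a `p`-th power in `F_{E₁}` (`t ≠ 0`);
* `f₂, G₀ ∈ F_{E₂}`: the expansion of `f₂` is a Kummer generator of `x`, `f₂` is horizontally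
  `p`-divisible;
* a constant `κ ∈ E₂` (e.g. `1`) with, coefficientwise,

      `σ₁ (f₂) = f₂ · κ · ft · G₀ ^ p`          (`σ₁ x = x + t`).
-/
import Fermat.Agent.Ribet.H704.WildSpec
import Fermat.Agent.Ribet.H944.WildLevel

set_option autoImplicit false
set_option synthInstance.maxHeartbeats 400000
set_option maxHeartbeats 1000000
set_option linter.unusedSectionVars false
set_option linter.style.haveILetI false

noncomputable section

namespace Fermat.Agent.Ribet.H704.CoreOut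

open AlgebraicCurve ModularCurve HahnSeries
open Fermat.Agent.S24 Fermat.Agent.A2.H708 Fermat.Agent.A2.H528
open Fermat.Agent.Ribet.Spec Fermat.Agent.Ribet.H944.Wall Fermat.Agent.Ribet.H884
open Fermat.Agent.Ribet.H704 Fermat.Agent.A2

/-- **KD (Kummer data), ambient form.** -/
def KDStatement : Prop :=
  ∀ (p M' : ℕ) [NeZero M'] [NeZero p] [NeZero (p * M')], p.Prime → 5 ≤ p → ¬ p ∣ M' →
    ∀ A : ValuationSubring Kbar, A.LiesOverPrime p →
    ∀ (S : Finset ℕ) (a : ℕ → ℤ), NonEisAway p a → ∀ x t : JZero (p * M'),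
      IsNewTors p M' x → EigenAt (p * M') S a x →
      IsNewTors p M' t → EigenAt (p * M') S a t →
      (∀ σ ∈ A.inertiaSubgroupIn ℚ, ∀ c : ℕ, CycloAt p σ c → σ • t = c • t) →
      (∀ σ ∈ A.inertiaSubgroupIn ℚ, ∃ n : ℕ, σ • x = x + n • t) →
      (∀ σ : GQ, PeuFixes A p σ → σ • x = x) →
      ∀ σ₀ ∈ A.inertiaSubgroupIn ℚ, CycloAt p σ₀ 1 → σ₀ • x ≠ x →
    ∀ (ζ : Kbar), IsPrimitiveRoot ζ p → ∀ (σ₁ : GQ) (u : Kbar),
      σ₁ ∈ A.inertiaSubgroupIn ℚ → CycloAt p σ₁ 1 → σ₁ • x = x + t →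
      σ₁ u = ζ * u → u ∈ A → u⁻¹ ∈ A → u ≠ 0 → u ^ p ∈ H944.Tame.tameLevel A ζ →
      GoodField A (H944.Tame.wildLevel A ζ u) →
      (∀ e ∈ H944.Tame.wildLevel A ζ u, (σ₁ ^ p) e = e) →
      (∀ e ∈ H944.Tame.wildLevel A ζ u, σ₁ e = e → e ∈ H944.Tame.tameLevel A ζ) →
      (∀ σ ∈ A.inertiaSubgroupIn ℚ, CycloAt p σ 1 →
        ∀ n : ℕ, σ • x = x + n • t → σ u = ζ ^ n * u) →
      (∀ y : Kbar, y ∈ H944.Tame.wildLevel A ζ u ↔
        ∀ ρ ∈ A.inertiaSubgroupIn ℚ, CycloAt p ρ 1 → ρ • x = x → ρ y = y) →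
      (∀ σ : GQ, PeuFixes A p σ → σ u = u) →
    ∃ (ft : Mod.FE (H944.Tame.tameLevel A ζ) (M' * p))
      (f₂ G₀ : Mod.FE (H944.Tame.wildLevel A ζ u) (M' * p)) (Ft f : FF (p * M')) (κ : Kbar),
      (ft : LaurentSeries (H944.Tame.tameLevel A ζ)).leadingCoeff = 1 ∧
      (p : ℤ) ∣ (ft : LaurentSeries (H944.Tame.tameLevel A ζ)).order ∧
      (∀ z : Mod.FE (H944.Tame.tameLevel A ζ) (M' * p), z ^ p ≠ ft) ∧
      IsKummerGen (p * M') p Ft t ∧
      (Ft : LaurentSeries Kbar) = coeffMap (algebraMap (H944.Tame.tameLevel A ζ) Kbar)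
        (ft : LaurentSeries (H944.Tame.tameLevel A ζ)) ∧
      IsKummerGen (p * M') p f x ∧
      (f : LaurentSeries Kbar) = coeffMap (algebraMap (H944.Tame.wildLevel A ζ u) Kbar)
        (f₂ : LaurentSeries (H944.Tame.wildLevel A ζ u)) ∧
      f₂ ≠ 0 ∧ DivisibleDiv (H944.Tame.wildLevel A ζ u) p f₂ ∧
      κ ∈ H944.Tame.wildLevel A ζ u ∧
      coeffMap ((σ₁ : Kbar ≃ₐ[ℚ] Kbar) : Kbar →+* Kbar)
          (coeffMap (algebraMap (H944.Tame.wildLevel A ζ u) Kbar)
            (f₂ : LaurentSeries (H944.Tame.wildLevel A ζ u))) =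
        coeffMap (algebraMap (H944.Tame.wildLevel A ζ u) Kbar)
            (f₂ : LaurentSeries (H944.Tame.wildLevel A ζ u)) *
          HahnSeries.C κ *
          coeffMap (algebraMap (H944.Tame.tameLevel A ζ) Kbar)
            (ft : LaurentSeries (H944.Tame.tameLevel A ζ)) *
          (coeffMap (algebraMap (H944.Tame.wildLevel A ζ u) Kbar)
            (G₀ : LaurentSeries (H944.Tame.wildLevel A ζ u))) ^ p

end Fermat.Agent.Ribet.H704.CoreOut
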