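/-
# RIBET row 38, WALL-p, (S4) = `H884.EisSlopeStatement`: TOP decomposition (sub-architect helper704)

Target: `H884.EisSlopeStatement` (`Ribet/H884/SlopeSpec.lean`), the last input of
`H884.wallTargets5_of` / `H943.S44_of_leaves`.

## Idea
`D` = the modular unit `Δ(t)/Δ(t^p)` (divisor supported at the cusps).  The I6 package (cover +
period + thickness-free node relation) shows that the slope vector of `x` is a multiple of the
slope vector of `D`:  for a Kummer generator `f` of `x` there is `i : ℤ` such that `f · D ^ i` has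
slopes `0` at every supersingular point.  `f · D ^ i` is not a Kummer generator (its divisor is
`p · (…) + i · div D`), so "slopes `0`" is expressed AWAY FROM THE CUSPS: `FinGenOff`.
Hecke: `T_ℓ f = c f^{a_ℓ} G^p` (KUMEIG), `T_ℓ D ≈ D^{ℓ+1}`, and `T_ℓ` preserves `FinGenOff`
(HECKE for FUNCTIONS = HECKE-RED + KNORM-OFF).  Hence `D ^ (i (ℓ + 1 - a_ℓ))` is `FinGenOff`, so
`p ∣ i (ℓ + 1 - a_ℓ)`: either `p ∣ i` and `x ∈ 𝓕`, or `a_ℓ ≡ ℓ + 1`.

## Leaves
| leaf | Prop | owner |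
|---|---|---|
| KUMEIG, FRICKE-HECKE, HECKE-RED | `H944.I2.*` (I2Spec.lean) | owners of I2 |
| REDEX, REDFIELD | `H884.RedExistsStatement`, `H884.RedFieldStatement` | helper997 |
| KNORM-OFF | `KnormOffStatement` : `knorm ℓ` preserves "`p ∣ ord_Q` off the cusps" on `k(X₀(M'))` | HECKE owners |
| OFF-FIN   | `OffFinStatement` : a Kummer generator which is `FinGenOff` is `FinGen` (purity at the cusps) | WPS / adapter owners |
| EIS-OUT   | `EisOutStatement` : the output of the I6 package | helper704 (CORE-2 + INST) |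

## Proved here
`eisSlope_of : … → H884.EisSlopeStatement`.
-/
import Fermat.Agent.Ribet.H944.I2Spec

set_option autoImplicit false
set_option linter.style.haveILetI false
set_option synthInstance.maxHeartbeats 400000
set_option maxHeartbeats 1000000

noncomputable section

namespace Fermat.Agent.Ribet.H704.Eis

open AlgebraicCurve ModularCurve HahnSeries
open Fermat.Agent.S24 Fermat.Agent.A2.H708 Fermat.Agent.A2.H528
open Fermat.Agent.Ribet.Spec Fermat.Agent.Ribet.H944.Wall Fermat.Agent.Ribet.H884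
open Fermat.Agent.Ribet.H944.I2 Fermat.Agent.S37.H697

/-! ## Vocabulary -/

/-- The `j`-function as an element of `F_k = k(X₀(M'))`. -/
def jK (k : Type) [Field k] (M' : ℕ) : modularFunctionFieldFullC k M' :=
  ⟨jqModC k, jqModC_mem_full k M'⟩

/-- `r` is a nonzero element of `F_k = k(X₀(M'))` whose order is divisible by `p` at every place
of `F_k` which is NOT a cusp (`ord_Q j ≥ 0`). -/
def PDivOff (p M' : ℕ) {k : Type} [Field k] (r : LaurentSeries k) : Prop :=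
  ∃ h : modularFunctionFieldFullC k M', (h : LaurentSeries k) = r ∧ h ≠ 0 ∧
    ∀ Q : Place k (modularFunctionFieldFullC k M'), 0 ≤ Q.ord (jK k M') → (p : ℤ) ∣ Q.ord h

section Defs

variable (p M' : ℕ) [NeZero (p * M')] (A : ValuationSubring Kbar)

/-- `f` has slopes `0` on both components away from the cusps. -/
def FinGenOff (f : FF (p * M')) : Prop :=
  ∃ r₁ r₂ : LaurentSeries (kA A), IsRedInf (p * M') A f r₁ ∧ IsRedZero (p * M') A f r₂ ∧
    PDivOff p M' r₁ ∧ PDivOff p M' r₂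

/-- What the assembly uses of the modular unit `D = Δ(t)/Δ(t^p)`:
its slopes are not all divisible by `p`, and `T_ℓ D / D ^ (ℓ + 1)` has slopes `0`. -/
structure UnitData (D : FF (p * M')) : Prop where
  ne_zero : D ≠ 0
  slope : ∀ n : ℤ, FinGenOff p M' A (D ^ n) → (p : ℤ) ∣ n
  hecke : ∀ (ℓ : ℕ) [NeZero ℓ], ℓ.Prime → ¬ ℓ ∣ p * M' →
    FinGenOff p M' A (hNorm (p * M') ℓ D * (D ^ (ℓ + 1))⁻¹)

end Defs

/-! ## Leaves -/

/-- **KNORM-OFF** (Hecke on `k(X₀(M'))`, characteristic `p`, `ℓ ∤ pM'`): the formal Kronecker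
norm `knorm ℓ r = Nm_α(β r)` of `r ∈ F_k` lies in `F_k`, and `div (knorm ℓ r) = T_ℓ (div r)`;
`T_ℓ` maps non-cuspidal places to non-cuspidal places, so divisibility by `p` of the orders away
from the cusps is preserved. -/
def KnormOffStatement : Prop :=
  ∀ (p M' : ℕ) [NeZero M'], p.Prime → ¬ p ∣ M' →
    ∀ (k : Type) [Field k] [IsAlgClosed k] [CharP k p] (ℓ : ℕ) [NeZero ℓ], ℓ.Prime →
      ¬ ℓ ∣ p * M' → ∀ r : LaurentSeries k, PDivOff p M' r → PDivOff p M' (knorm ℓ r)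

/-- **OFF-FIN** (purity at the cusps): for a Kummer generator (`div f = p · D`) divisibility
by `p` of the orders of the reductions at the cusps is automatic. -/
def OffFinStatement : Prop :=
  ∀ (p M' : ℕ) [NeZero M'] [NeZero p] [NeZero (p * M')], p.Prime → ¬ p ∣ M' →
    ∀ A : ValuationSubring Kbar, A.LiesOverPrime p →
    ∀ (x : JZero (p * M')) (f : FF (p * M')), IsKummerGen (p * M') p f x →
      FinGenOff p M' A f → FinGen p M' A f

/-- **EIS-OUT** (output of the I6 package: cover + period + node relation, no Hecke operators):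
under the hypotheses of (S4) the class `x` has a Kummer generator `f` such that either `f` itself
or `f · D ^ i`, `D` a modular unit, has slopes `0` away from the cusps. -/
def EisOutStatement : Prop :=
  ∀ (p M' : ℕ) [NeZero M'] [NeZero p] [NeZero (p * M')], p.Prime → 5 ≤ p → ¬ p ∣ M' →
    ∀ A : ValuationSubring Kbar, A.LiesOverPrime p →
    ∀ (S : Finset ℕ) (a : ℕ → ℤ) (x t : JZero (p * M')),
      IsNewTors p M' x → EigenAt (p * M') S a x →
      IsNewTors p M' t → EigenAt (p * M') S a t →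
      (∀ σ ∈ A.inertiaSubgroupIn ℚ, ∀ c : ℕ, CycloAt p σ c → σ • t = c • t) →
      (∀ σ ∈ A.inertiaSubgroupIn ℚ, ∃ n : ℕ, σ • x = x + n • t) →
      (∀ σ : GQ, PeuFixes A p σ → σ • x = x) →
      ∃ f : FF (p * M'), IsKummerGen (p * M') p f x ∧
        (FinGenOff p M' A f ∨
          ∃ (D : FF (p * M')) (i : ℤ), UnitData p M' A D ∧ FinGenOff p M' A (f * D ^ i))

/-! ## Algebra of `PDivOff` and `FinGenOff` -/

section Alg

variable {p M' : ℕ} {k : Type} [Field k]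

theorem ord_const_eq_zero (Q : Place k (modularFunctionFieldFullC k M')) {c : k} (hc : c ≠ 0) :
    Q.ord (algebraMap k (modularFunctionFieldFullC k M') c) = 0 := by
  have h1 : algebraMap k (modularFunctionFieldFullC k M') c ∈ Q.toValuationSubring :=
    Q.algebraMap_mem' c
  have h2 : algebraMap k (modularFunctionFieldFullC k M') c⁻¹ ∈ Q.toValuationSubring :=
    Q.algebraMap_mem' c⁻¹
  have hmul : (⟨_, h1⟩ : Q.toValuationSubring) * ⟨_, h2⟩ = 1 := by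
    apply Subtype.ext
    show algebraMap k (modularFunctionFieldFullC k M') c *
      algebraMap k (modularFunctionFieldFullC k M') c⁻¹ = 1
    rw [← map_mul, mul_inv_cancel₀ hc, map_one]
  have hmul' : (⟨_, h2⟩ : Q.toValuationSubring) * ⟨_, h1⟩ = 1 := by
    rw [mul_comm]; exact hmul
  exact Q.ord_coe_unit ⟨⟨_, h1⟩, ⟨_, h2⟩, hmul, hmul'⟩

theorem pDivOff_mul {r s : LaurentSeries k} (hr : PDivOff p M' r) (hs : PDivOff p M' s) :
    PDivOff p M' (r * s) := by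
  obtain ⟨h, rfl, h0, hd⟩ := hr
  obtain ⟨g, rfl, g0, gd⟩ := hs
  refine ⟨h * g, rfl, mul_ne_zero h0 g0, fun Q hQ => ?_⟩
  rw [Q.ord_mul h0 g0]
  exact dvd_add (hd Q hQ) (gd Q hQ)

theorem pDivOff_inv {r : LaurentSeries k} (hr : PDivOff p M' r) : PDivOff p M' r⁻¹ := by
  obtain ⟨h, rfl, h0, hd⟩ := hr
  refine ⟨h⁻¹, rfl, inv_ne_zero h0, fun Q hQ => ?_⟩
  rw [Q.ord_inv]
  exact (dvd_neg).mpr (hd Q hQ)

theorem pDivOff_one : PDivOff p M' (1 : LaurentSeries k) :=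
  ⟨1, rfl, one_ne_zero, fun Q _ => by rw [Q.ord_one]; exact dvd_zero _⟩

theorem pDivOff_zpow {r : LaurentSeries k} (hr : PDivOff p M' r) (n : ℤ) :
    PDivOff p M' (r ^ n) := by
  obtain ⟨h, rfl, h0, hd⟩ := hr
  refine ⟨h ^ n, rfl, zpow_ne_zero n h0, fun Q hQ => ?_⟩
  rw [Q.ord_zpow]
  exact Dvd.dvd.mul_left (hd Q hQ) n

/-- A `p`-th power of a nonzero element of `F_k` is `PDivOff`. -/
theorem pDivOff_pow_p {r : LaurentSeries k} (h : modularFunctionFieldFullC k M')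
    (hh : (h : LaurentSeries k) = r) (h0 : h ≠ 0) : PDivOff p M' (r ^ p) := by
  subst hh
  refine ⟨h ^ p, rfl, pow_ne_zero p h0, fun Q _ => ?_⟩
  have : Q.ord (h ^ p) = (p : ℤ) * Q.ord h := by
    rw [← zpow_natCast, Q.ord_zpow]
  rw [this]
  exact dvd_mul_right _ _

end Alg

section FinGenOffAlg

variable {p M' : ℕ} [NeZero (p * M')] {A : ValuationSubring Kbar}

theorem finGenOff_mul {f g : FF (p * M')} (hf : FinGenOff p M' A f) (hg : FinGenOff p M' A g) :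
    FinGenOff p M' A (f * g) := by
  obtain ⟨r₁, r₂, h1, h2, h3, h4⟩ := hf
  obtain ⟨s₁, s₂, k1, k2, k3, k4⟩ := hg
  refine ⟨r₁ * s₁, r₂ * s₂, isRedInf_mul _ A h1 k1, ?_, pDivOff_mul h3 k3, pDivOff_mul h4 k4⟩
  show IsRedInf (p * M') A (wF (p * M') (f * g)) (r₂ * s₂)
  rw [map_mul]
  exact isRedInf_mul _ A h2 k2

theorem finGenOff_inv {f : FF (p * M')} (hf : FinGenOff p M' A f) : FinGenOff p M' A f⁻¹ := by
  obtain ⟨r₁, r₂, h1, h2, h3, h4⟩ := hf
  refine ⟨r₁⁻¹, r₂⁻¹, isRedInf_inv _ A h1, ?_, pDivOff_inv h3, pDivOff_inv h4⟩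
  show IsRedInf (p * M') A (wF (p * M') f⁻¹) r₂⁻¹
  rw [map_inv₀]
  exact isRedInf_inv _ A h2

theorem finGenOff_zpow {f : FF (p * M')} (hf : FinGenOff p M' A f) (n : ℤ) :
    FinGenOff p M' A (f ^ n) := by
  obtain ⟨r₁, r₂, h1, h2, h3, h4⟩ := hf
  refine ⟨r₁ ^ n, r₂ ^ n, isRedInf_zpow _ A h1 n, ?_, pDivOff_zpow h3 n, pDivOff_zpow h4 n⟩
  show IsRedInf (p * M') A (wF (p * M') (f ^ n)) (r₂ ^ n)
  rw [map_zpow₀]
  exact isRedInf_zpow _ A h2 n

theorem finGenOff_const {c : Kbar} (hc : c ≠ 0) :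
    FinGenOff p M' A (algebraMap Kbar (FF (p * M')) c) := by
  refine ⟨1, 1, isRedInf_const _ A hc, ?_, pDivOff_one, pDivOff_one⟩
  show IsRedInf (p * M') A (wF (p * M') (algebraMap Kbar (FF (p * M')) c)) 1
  rw [AlgEquiv.commutes]
  exact isRedInf_const _ A hc

end FinGenOffAlg

/-! ## The glue -/

section Glue

variable {p M' : ℕ} [NeZero (p * M')] {A : ValuationSubring Kbar}

/-- A `p`-th power is `FinGenOff` (REDEX + REDFIELD). -/
theorem finGenOff_pow_p [NeZero M'] [NeZero p] (hEx : RedExistsStatement)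
    (hRF : RedFieldStatement) (hp : p.Prime) (hpM : ¬ p ∣ M') (hA : A.LiesOverPrime p)
    {G : FF (p * M')} (hG : G ≠ 0) : FinGenOff p M' A (G ^ p) := by
  obtain ⟨⟨r₁, hr₁⟩, ⟨r₂, hr₂⟩⟩ := hEx p (p * M') hp A hA G hG
  obtain ⟨h₁, hh₁⟩ := hRF p M' hp hpM A hA G r₁ (Or.inl hr₁)
  obtain ⟨h₂, hh₂⟩ := hRF p M' hp hpM A hA G r₂ (Or.inr hr₂)
  have h10 : h₁ ≠ 0 := by
    rintro rfl
    exact (isRedInf_ne_zero _ A hr₁).2 hh₁.symm
  have h20 : h₂ ≠ 0 := by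
    rintro rfl
    exact (isRedInf_ne_zero _ A hr₂).2 hh₂.symm
  refine ⟨r₁ ^ p, r₂ ^ p, isRedInf_pow _ A hr₁ p, ?_, pDivOff_pow_p h₁ hh₁ h10,
    pDivOff_pow_p h₂ hh₂ h20⟩
  show IsRedInf (p * M') A (wF (p * M') (G ^ p)) (r₂ ^ p)
  rw [map_pow]
  exact isRedInf_pow _ A hr₂ p

/-- HECKE for functions: `T_ℓ` preserves `FinGenOff`. -/
theorem finGenOff_hNorm [NeZero M'] (hFH : FrickeHeckeStatement) (hHR : HeckeRedStatement)
    (hRes : ResFieldStatement) (hKO : KnormOffStatement) (hp : p.Prime) (hpM : ¬ p ∣ M')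
    (hA : A.LiesOverPrime p) {ℓ : ℕ} [NeZero ℓ] (hℓ : ℓ.Prime) (hℓN : ¬ ℓ ∣ p * M')
    {u : FF (p * M')} (hu : FinGenOff p M' A u) :
    FinGenOff p M' A (hNorm (p * M') ℓ u) := by
  obtain ⟨hac, hch⟩ := hRes p hp A hA
  haveI := hac
  haveI := hch
  obtain ⟨r₁, r₂, h1, h2, h3, h4⟩ := hu
  refine ⟨knorm ℓ r₁, knorm ℓ r₂, hHR (p * M') ℓ hℓ hℓN A u r₁ h1, ?_,
    hKO p M' hp hpM (kA A) ℓ hℓ hℓN r₁ h3, hKO p M' hp hpM (kA A) ℓ hℓ hℓN r₂ h4⟩
  show IsRedInf (p * M') A (wF (p * M') (hNorm (p * M') ℓ u)) (knorm ℓ r₂)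
  rw [← hFH (p * M') ℓ hℓ hℓN u]
  exact hHR (p * M') ℓ hℓ hℓN A _ r₂ h2

theorem hNorm_inv' (N ℓ : ℕ) [NeZero N] [NeZero ℓ] {u : FF N} (hu : u ≠ 0) :
    hNorm N ℓ u⁻¹ = (hNorm N ℓ u)⁻¹ := by
  have h : hNorm N ℓ u * hNorm N ℓ u⁻¹ = 1 := by
    show Fermat.Agent.S29.H395.heckeNorm N ℓ u * Fermat.Agent.S29.H395.heckeNorm N ℓ u⁻¹ = 1
    rw [← Fermat.Agent.S29.H395.heckeNorm_mul, mul_inv_cancel₀ hu,
      Fermat.Agent.S29.H395.heckeNorm_one]
  exact eq_inv_of_mul_eq_one_right h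

theorem hNorm_zpow' (N ℓ : ℕ) [NeZero N] [NeZero ℓ] {u : FF N} (hu : u ≠ 0) (n : ℤ) :
    hNorm N ℓ (u ^ n) = hNorm N ℓ u ^ n := by
  rcases n with n | n
  · simpa using Fermat.Agent.S29.H395.heckeNorm_pow N ℓ u n
  · rw [zpow_negSucc, zpow_negSucc, hNorm_inv' N ℓ (pow_ne_zero _ hu)]
    congr 1
    exact Fermat.Agent.S29.H395.heckeNorm_pow N ℓ u (n + 1)

/-- **(S4) = EIS from its leaves.** -/
theorem eisSlope_of (hEx : RedExistsStatement) (hRF : RedFieldStatement)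
    (hRes : ResFieldStatement) (hK : KumEigStatement) (hFH : FrickeHeckeStatement)
    (hHR : HeckeRedStatement) (hKO : KnormOffStatement) (hOF : OffFinStatement)
    (hEO : EisOutStatement) : EisSlopeStatement := by
  intro p M' _ _ _ hp hp5 hpM A hA S a x t hx hex ht het hχ hsh hpeu
  obtain ⟨f, hfK, hcase⟩ := hEO p M' hp hp5 hpM A hA S a x t hx hex ht het hχ hsh hpeu
  have hf0 : f ≠ 0 := hfK.1
  -- if `f` itself has slopes `0` away from the cusps, then `x ∈ 𝓕`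
  have hfin : FinGenOff p M' A f → ∃ S' : Finset ℕ, IsEisMod p M' A S' x := by
    intro hf
    have hxF : x ∈ finPart p M' A :=
      AddSubgroup.subset_closure ⟨f, hfK, hOF p M' hp hpM A hA x f hfK hf⟩
    refine ⟨S, fun ℓ hℓ => ?_⟩
    rw [hex ℓ hℓ]
    exact (finPart p M' A).sub_mem ((finPart p M' A).zsmul_mem hxF _)
      ((finPart p M' A).nsmul_mem hxF _)
  rcases hcase with hf | ⟨D, i, hD, hfD⟩
  · exact hfin hf
  have hD0 : D ≠ 0 := hD.ne_zero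
  by_cases hpi : (p : ℤ) ∣ i
  · -- `D ^ i` is a `p`-th power
    obtain ⟨j, rfl⟩ := hpi
    apply hfin
    have h1 : FinGenOff p M' A ((D ^ j) ^ p) :=
      finGenOff_pow_p hEx hRF hp hpM hA (zpow_ne_zero j hD0)
    have e : f = f * D ^ ((p : ℤ) * j) * ((D ^ j) ^ p)⁻¹ := by
      have h2 : (D ^ j) ^ p = D ^ ((p : ℤ) * j) := by
        rw [← zpow_natCast, ← zpow_mul]
        exact congrArg (fun n : ℤ => D ^ n) (mul_comm j (p : ℤ))
      rw [h2, mul_assoc, mul_inv_cancel₀ (zpow_ne_zero _ hD0), mul_one]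
    rw [e]
    exact finGenOff_mul hfD (finGenOff_inv h1)
  · -- `a ℓ ≡ ℓ + 1` for all good `ℓ`
    refine ⟨S ∪ (p * M').primeFactors, fun ℓ hℓ => ?_⟩
    have hℓS : (ℓ : ℕ) ∉ S := fun h => hℓ (Finset.mem_union_left _ h)
    have hℓN : ¬ (ℓ : ℕ) ∣ p * M' := by
      intro hd
      exact hℓ (Finset.mem_union_right _
        (Nat.mem_primeFactors.mpr ⟨ℓ.2, hd, NeZero.ne (p * M')⟩))
    haveI : NeZero (ℓ : ℕ) := ⟨ℓ.2.ne_zero⟩
    obtain ⟨c, G, hc, hG, hX⟩ := hK (p * M') p hp.ne_zero S a x f hfK hex (ℓ : ℕ) ℓ.2 hℓS hℓN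
    set X := hNorm (p * M') (ℓ : ℕ) f with hXdef
    set Y := hNorm (p * M') (ℓ : ℕ) D with hYdef
    set c' : FF (p * M') := algebraMap Kbar (FF (p * M')) c with hc'def
    have hc'0 : c' ≠ 0 := by
      rw [hc'def]
      exact (map_ne_zero (algebraMap Kbar (FF (p * M')))).mpr hc
    -- step (a)
    have ha : FinGenOff p M' A (X * Y ^ i) := by
      have h := finGenOff_hNorm hFH hHR hRes hKO hp hpM hA ℓ.2 hℓN hfD
      have e : hNorm (p * M') (ℓ : ℕ) (f * D ^ i) = X * Y ^ i := by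
        rw [hXdef, hYdef, ← hNorm_zpow' _ _ hD0]
        exact Fermat.Agent.S29.H395.heckeNorm_mul _ _ _ _
      rwa [e] at h
    -- `Y ≠ 0`
    have hYD := hD.hecke (ℓ : ℕ) ℓ.2 hℓN
    have hY0 : Y ≠ 0 := by
      obtain ⟨r₁, -, h1, -⟩ := hYD
      have := (isRedInf_ne_zero _ A h1).1
      exact left_ne_zero_of_mul this
    have hfa0 : f ^ (a ℓ) ≠ 0 := zpow_ne_zero _ hf0
    have hGp0 : G ^ p ≠ 0 := pow_ne_zero _ hG
    have hYi0 : Y ^ i ≠ 0 := zpow_ne_zero _ hY0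
    have hDia0 : (D ^ i) ^ (a ℓ) ≠ 0 := zpow_ne_zero _ (zpow_ne_zero _ hD0)
    have hDl0 : D ^ ((ℓ : ℕ) + 1) ≠ 0 := pow_ne_zero _ hD0
    have hDli0 : (D ^ ((ℓ : ℕ) + 1)) ^ i ≠ 0 := zpow_ne_zero _ hDl0
    -- step (b)
    have hb : FinGenOff p M' A (f ^ (a ℓ) * Y ^ i) := by
      have e : f ^ (a ℓ) * Y ^ i = X * Y ^ i * c'⁻¹ * (G ^ p)⁻¹ := by
        rw [hX]
        field_simp
      rw [e]
      exact finGenOff_mul (finGenOff_mul ha (finGenOff_inv (finGenOff_const hc)))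
        (finGenOff_inv (finGenOff_pow_p hEx hRF hp hpM hA hG))
    -- step (c)
    have hc2 : FinGenOff p M' A (f ^ (a ℓ) * (D ^ i) ^ (a ℓ)) := by
      rw [← mul_zpow]
      exact finGenOff_zpow hfD _
    -- step (d)
    have hd : FinGenOff p M' A (Y ^ i * ((D ^ i) ^ (a ℓ))⁻¹) := by
      have e : Y ^ i * ((D ^ i) ^ (a ℓ))⁻¹ =
          f ^ (a ℓ) * Y ^ i * (f ^ (a ℓ) * (D ^ i) ^ (a ℓ))⁻¹ := by
        field_simp
      rw [e]
      exact finGenOff_mul hb (finGenOff_inv hc2)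
    -- step (e)
    have he : FinGenOff p M' A (Y ^ i * ((D ^ ((ℓ : ℕ) + 1)) ^ i)⁻¹) := by
      have h := finGenOff_zpow hYD i
      rwa [mul_zpow, inv_zpow] at h
    -- step (f)
    have hf' : FinGenOff p M' A ((D ^ ((ℓ : ℕ) + 1)) ^ i * ((D ^ i) ^ (a ℓ))⁻¹) := by
      have e : (D ^ ((ℓ : ℕ) + 1)) ^ i * ((D ^ i) ^ (a ℓ))⁻¹ =
          Y ^ i * ((D ^ i) ^ (a ℓ))⁻¹ * (Y ^ i * ((D ^ ((ℓ : ℕ) + 1)) ^ i)⁻¹)⁻¹ := by
        field_simp
      rw [e]
      exact finGenOff_mul hd (finGenOff_inv he)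
    -- step (g)
    have hg : (D ^ ((ℓ : ℕ) + 1)) ^ i * ((D ^ i) ^ (a ℓ))⁻¹ =
        D ^ ((((ℓ : ℕ) : ℤ) + 1) * i - i * a ℓ) := by
      rw [zpow_sub₀ hD0, zpow_mul, zpow_mul, div_eq_mul_inv]
      congr 2
    rw [hg] at hf'
    have hdvd := hD.slope _ hf'
    have hdvd2 : (p : ℤ) ∣ i * ((((ℓ : ℕ) : ℤ) + 1) - a ℓ) := by
      have e : i * ((((ℓ : ℕ) : ℤ) + 1) - a ℓ) = (((ℓ : ℕ) : ℤ) + 1) * i - i * a ℓ := by ring
      rw [e]; exact hdvd
    have hpp : Prime (p : ℤ) := Nat.prime_iff_prime_int.mp hp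
    have hdvd3 : (p : ℤ) ∣ (((ℓ : ℕ) : ℤ) + 1) - a ℓ :=
      (hpp.dvd_or_dvd hdvd2).resolve_left hpi
    -- conclusion
    rw [hex ℓ hℓS]
    have e : a ℓ • x - ((ℓ : ℕ) + 1) • x = (a ℓ - (((ℓ : ℕ) : ℤ) + 1)) • x := by
      have h3 : (((ℓ : ℕ) : ℤ) + 1) = ((((ℓ : ℕ) + 1 : ℕ)) : ℤ) := by push_cast; ring
      rw [sub_smul, h3, natCast_zsmul]
    rw [e]
    obtain ⟨q, hq⟩ := hdvd3
    have e2 : a ℓ - (((ℓ : ℕ) : ℤ) + 1) = (p : ℤ) * (-q) := by
      have : a ℓ - (((ℓ : ℕ) : ℤ) + 1) = -((((ℓ : ℕ) : ℤ) + 1) - a ℓ) := by ring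
      rw [this, hq]; ring
    have e3 : ((p : ℤ) * (-q)) • x = 0 := by
      have e4 : (p : ℤ) * (-q) = (-q) * (p : ℤ) := mul_comm _ _
      rw [e4, mul_smul, natCast_zsmul, hx.1, smul_zero]
    rw [e2, e3]
    exact (finPart p M' A).zero_mem

end Glue

end Fermat.Agent.Ribet.H704.Eis

end
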