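import Fermat.Agent.Ribet.H704.NonScalar
import Fermat.Agent.Lib.Cheb.Chebotarev
import Fermat.Agent.S55.H414.CycloPow
import Fermat.Agent.S55.Bridge.Cyclo

/-!
# RIBET / DETF + NMT (helper704), part 4: `det ρ̄_{E,p} = cyclotomic character`

For EVERY Frey package `P` (no irreducibility hypothesis) and every `σ ∈ G_ℚ`:

  `det (σ | E[p]) = χ_p(σ)`        (`frey_det_eq_cycloChar`),

without the Weil pairing: Chebotarev (`Lib.Cheb.chebotarev`) + the Frobenius relation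
(`Lib.Frob`) + Cayley-Hamilton for the non-scalar elements, and the non-scalar elements generate
(`exists_not_scalar`).
-/

set_option autoImplicit false

open WeierstrassCurve WeierstrassCurve.Affine WeierstrassCurve.Affine.Point

namespace Fermat.Agent.Ribet.H704

open Fermat.Agent.Ribet.Spec (GQ FreyTorsion)
open ExtCitation

/-- If `σ` raises every `p`-th root of unity to the power `c`, then `χ_p(σ) = c`. -/
theorem cycloChar_eq_natCast (p : ℕ) [Fact p.Prime] (σ : GQ) (c : ℕ)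
    (h : ∀ ζ : AlgebraicClosure ℚ, ζ ^ p = 1 → σ ζ = ζ ^ c) :
    ((cycloChar p σ : (ZMod p)ˣ) : ZMod p) = (c : ZMod p) := by
  have : NeZero p := ⟨(Fact.out : p.Prime).ne_zero⟩
  refine (modularCyclotomicCharacter.unique (AlgebraicClosure ℚ) (card_rootsOfUnity_eq_self p)
    (σ : AlgebraicClosure ℚ ≃+* AlgebraicClosure ℚ) (c := (c : ZMod p)) fun t ht => ?_).symm
  have htp : (t : AlgebraicClosure ℚ) ^ p = 1 := by
    have := (mem_rootsOfUnity p t).1 ht
    rw [← Units.val_pow_eq_pow_val, this, Units.val_one]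
  have h1 : σ (t : AlgebraicClosure ℚ) = (t : AlgebraicClosure ℚ) ^ c := h _ htp
  rw [ZMod.val_natCast, ← pow_eq_pow_mod c htp]
  exact h1

/-- `σ` raises every `p`-th root of unity to the power `χ_p(σ)`. -/
theorem apply_root_eq_pow_cycloChar (p : ℕ) [Fact p.Prime] (σ : GQ) (ζ : AlgebraicClosure ℚ)
    (hζ : ζ ^ p = 1) :
    σ ζ = ζ ^ ((cycloChar p σ : (ZMod p)ˣ) : ZMod p).val := by
  have hp : p.Prime := Fact.out
  have hζ0 : ζ ≠ 0 := by
    rintro rfl
    rw [zero_pow hp.ne_zero] at hζ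
    exact zero_ne_one hζ
  have ht : Units.mk0 ζ hζ0 ∈ rootsOfUnity p (AlgebraicClosure ℚ) := by
    rw [mem_rootsOfUnity]
    apply Units.ext
    rw [Units.val_pow_eq_pow_val, Units.val_mk0, hζ, Units.val_one]
  exact Fermat.Agent.S55.Bridge.cycloChar_spec p σ ht

/-- An element of `G_ℚ` fixing `ℚ(ζ_p)` pointwise has trivial cyclotomic character. -/
theorem cycloChar_eq_one_of_fixes_cycloLevel (p : ℕ) [Fact p.Prime] (σ : GQ)
    (h : haveI : NeZero p := ⟨(Fact.out : p.Prime).ne_zero⟩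
      ∀ x ∈ Fermat.Agent.S55.H414.cycloLevel p, σ x = x) :
    cycloChar p σ = 1 := by
  have : NeZero p := ⟨(Fact.out : p.Prime).ne_zero⟩
  apply Fermat.Agent.S55.Bridge.cycloChar_eq_one_of_fixes
  intro t ht
  have htp : (t : AlgebraicClosure ℚ) ^ p = 1 := by
    have := (mem_rootsOfUnity p t).1 ht
    rw [← Units.val_pow_eq_pow_val, this, Units.val_one]
  obtain ⟨i, -, hi⟩ := (Fermat.Agent.S55.H414.zetaBar_spec p).eq_pow_of_pow_eq_one htp
  rw [← hi, map_pow, h _ (Fermat.Agent.S55.H414.zetaBar_mem_cycloLevel p)]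

/-- A Frobenius element at `A | ℓ`, `ℓ ≠ p`, has cyclotomic character `ℓ`. -/
theorem cycloChar_frob (p : ℕ) [Fact p.Prime] {ℓ : ℕ} (hℓ : ℓ.Prime) (hℓp : ℓ ≠ p)
    (A : ValuationSubring (AlgebraicClosure ℚ)) (hA : A.LiesOverPrime ℓ) (τ : GQ)
    (hτ : A.IsFrobeniusAt τ ℓ) :
    ((cycloChar p τ : (ZMod p)ˣ) : ZMod p) = (ℓ : ZMod p) := by
  have hp : p.Prime := Fact.out
  apply cycloChar_eq_natCast
  intro ζ hζ
  exact Fermat.Agent.S55.H414.IsFrobeniusAt_apply_root hτ hp.ne_zero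
    (Fermat.Agent.S55.Bridge.val_prime_eq_one (A := A) hA hℓ hp hℓp) hζ

/-! ## Good primes of the integral Frey model -/

/-- The discriminant of the integral Frey model is nonzero. -/
theorem freyCurveInt_Δ_ne_zero (P : FreyPackage) : P.freyCurveInt.Δ ≠ 0 := by
  intro h
  apply Fermat.Agent.S13.H164.freyCurve_Δ_ne_zero P
  rw [Fermat.Agent.S13.H164.freyCurve_eq_map, WeierstrassCurve.map_Δ, h, _root_.map_zero]

/-- The finite set of primes avoided in the Chebotarev argument. -/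
noncomputable def badSet (P : FreyPackage) : Finset ℕ :=
  insert 2 (insert 3 (insert P.p P.freyCurveInt.Δ.natAbs.primeFactors))

theorem good_of_notMem_badSet (P : FreyPackage) {ℓ : ℕ} (hℓ : ℓ.Prime) (h : ℓ ∉ badSet P) :
    5 ≤ ℓ ∧ ℓ ≠ P.p ∧ P.freyCurveInt.IsGoodPrimeFor ℓ := by
  simp only [badSet, Finset.mem_insert, not_or] at h
  obtain ⟨h2, h3, hp, hΔ⟩ := h
  refine ⟨hℓ.five_le_of_ne_two_of_ne_three h2 h3, hp, ?_⟩
  intro hdvd
  apply hΔ
  rw [Nat.mem_primeFactors]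
  refine ⟨hℓ, Int.natCast_dvd.mp hdvd, ?_⟩
  exact Int.natAbs_ne_zero.mpr (freyCurveInt_Δ_ne_zero P)

/-! ## The determinant is cyclotomic -/

/-- `det = χ_p` at the elements which are not scalars on `E[p]`. -/
theorem det_eq_cycloChar_of_not_scalar (P : FreyPackage) [Fact P.p.Prime] (σ : GQ)
    (hns : ¬ ∃ s : ZMod P.p, ∀ x : FreyTorsion P, σ • x = s • x) :
    LinearMap.det (galoisRepModuleEnd (S := ℚ) (K := AlgebraicClosure ℚ) P.freyCurve P.p σ)
      = ((cycloChar P.p σ : (ZMod P.p)ˣ) : ZMod P.p) := by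
  have : NeZero P.p := ⟨P.pp.ne_zero⟩
  obtain ⟨L, hLfd, hL⟩ := exists_finite_level_frey P
  have hE : FiniteDimensional ℚ ↥(L ⊔ Fermat.Agent.S55.H414.cycloLevel P.p) :=
    IntermediateField.finiteDimensional_sup L (Fermat.Agent.S55.H414.cycloLevel P.p)
  obtain ⟨ℓ, A, τ, hℓ, hℓS, hA, hτ, -, hτσ⟩ :=
    Fermat.Agent.Lib.Cheb.chebotarev (L ⊔ Fermat.Agent.S55.H414.cycloLevel P.p) hE σ (badSet P)
  obtain ⟨h5, hℓp, hgood⟩ := good_of_notMem_badSet P hℓ hℓS
  -- `g = τ⁻¹ σ` is trivial on the compositum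
  have hg : ∀ x ∈ L ⊔ Fermat.Agent.S55.H414.cycloLevel P.p, (τ⁻¹ * σ) x = x := by
    intro x hx
    rw [AlgEquiv.mul_apply, ← hτσ x hx]
    exact τ.symm_apply_apply x
  have hgV : ∀ x : FreyTorsion P, (τ⁻¹ * σ) • x = x :=
    hL _ fun x hx => hg x ((le_sup_left : L ≤ _) hx)
  have hστ : ∀ x : FreyTorsion P, σ • x = τ • x := by
    intro x
    have h1 : σ = τ * (τ⁻¹ * σ) := by rw [mul_inv_cancel_left]
    conv_lhs => rw [h1, mul_smul, hgV x]
  have hρ : galoisRepModuleEnd (S := ℚ) (K := AlgebraicClosure ℚ) P.freyCurve P.p σ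
      = galoisRepModuleEnd (S := ℚ) (K := AlgebraicClosure ℚ) P.freyCurve P.p τ := by
    ext x
    simp only [galoisRepModuleEnd_apply]
    rw [hστ x]
  have hnsτ : ¬ ∃ s : ZMod P.p, ∀ x : FreyTorsion P, τ • x = s • x := by
    rintro ⟨s, hs⟩
    exact hns ⟨s, fun x => by rw [hστ x, hs x]⟩
  have hχg : cycloChar P.p (τ⁻¹ * σ) = 1 :=
    cycloChar_eq_one_of_fixes_cycloLevel P.p _ fun x hx =>
      hg x ((le_sup_right : Fermat.Agent.S55.H414.cycloLevel P.p ≤ _) hx)
  have hχ : cycloChar P.p σ = cycloChar P.p τ := by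
    have h1 : σ = τ * (τ⁻¹ * σ) := by rw [mul_inv_cancel_left]
    conv_lhs => rw [h1, map_mul, hχg, mul_one]
  rw [hρ, hχ, det_frob_of_not_scalar P hℓ h5 hℓp hgood A hA τ hτ hnsτ,
    cycloChar_frob P.p hℓ hℓp A hA τ hτ]

/-- **`det ρ̄_{E,p} = χ_p`** on all of `G_ℚ`, for every Frey package. -/
theorem frey_det_eq_cycloChar (P : FreyPackage) [Fact P.p.Prime] (σ : GQ) :
    LinearMap.det (galoisRepModuleEnd (S := ℚ) (K := AlgebraicClosure ℚ) P.freyCurve P.p σ)
      = ((cycloChar P.p σ : (ZMod P.p)ˣ) : ZMod P.p) := by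
  by_cases hs : ∃ s : ZMod P.p, ∀ x : FreyTorsion P, σ • x = s • x
  · obtain ⟨s, hs⟩ := hs
    obtain ⟨h, hh⟩ := exists_not_scalar P
    obtain ⟨b⟩ := nonempty_basis_freyTorsion P
    have hs0 : s ≠ 0 := by
      rintro rfl
      have h1 : σ • b 0 = 0 := by rw [hs (b 0), zero_smul]
      have h2 : b 0 = 0 := by
        have := congrArg (fun y => σ⁻¹ • y) h1
        simpa using this
      exact b.ne_zero 0 h2
    have hσh : ¬ ∃ s' : ZMod P.p, ∀ x : FreyTorsion P, (σ * h) • x = s' • x := by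
      rintro ⟨s', hs'⟩
      apply hh
      refine ⟨s⁻¹ * s', fun x => ?_⟩
      have h1 := hs' x
      rw [mul_smul, hs (h • x)] at h1
      rw [mul_smul, ← h1, smul_smul, inv_mul_cancel₀ hs0, one_smul]
    have h1 := det_eq_cycloChar_of_not_scalar P (σ * h) hσh
    have h2 := det_eq_cycloChar_of_not_scalar P h hh
    rw [map_mul, map_mul, map_mul, Units.val_mul, h2] at h1
    exact mul_right_cancel₀ (Units.ne_zero _) h1
  · exact det_eq_cycloChar_of_not_scalar P σ hs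

end Fermat.Agent.Ribet.H704
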