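import Mathlib

/-!
# RIBET / DETF + NMT (helper704), part 1: linear algebra in rank two

* `quadratic_of_basis` : Cayley-Hamilton in rank 2, `f² - tr(f) f + det(f) = 0`;
* `det_trace_of_quadratic` : if `f² - a f + c = 0` and `f` is not a scalar then
  `det f = c` and `tr f = a`;
* `det_of_forall_smul` : a scalar endomorphism `s` of a rank 2 space has determinant `s²`.
-/

set_option autoImplicit false

namespace Fermat.Agent.Ribet.H704

open Module

variable {k V : Type*} [Field k] [AddCommGroup V] [Module k V]

/-- Cayley-Hamilton in rank two. -/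
theorem quadratic_of_basis (b : Basis (Fin 2) k V) (f : End k V) :
    f * f - LinearMap.trace k V f • f + LinearMap.det f • (1 : End k V) = 0 := by
  have hfin : Module.Finite k V := Module.Finite.of_basis b
  have hfree : Module.Free k V := Module.Free.of_basis b
  have hCH := LinearMap.aeval_self_charpoly f
  have hM : f.charpoly = (LinearMap.toMatrix b b f).charpoly :=
    (LinearMap.charpoly_toMatrix f b).symm
  rw [hM, Matrix.charpoly_fin_two] at hCH
  have htr : (LinearMap.toMatrix b b f).trace = LinearMap.trace k V f :=
    (LinearMap.trace_eq_matrix_trace k b f).symm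
  have hdet : (LinearMap.toMatrix b b f).det = LinearMap.det f := LinearMap.det_toMatrix b f
  rw [htr, hdet] at hCH
  simp only [map_add, map_sub, map_mul, map_pow, Polynomial.aeval_X, Polynomial.aeval_C] at hCH
  rw [pow_two] at hCH
  have h1 : (algebraMap k (End k V)) (LinearMap.trace k V f) * f
      = LinearMap.trace k V f • f := by
    rw [Algebra.algebraMap_eq_smul_one, smul_mul_assoc, one_mul]
  have h2 : (algebraMap k (End k V)) (LinearMap.det f) = LinearMap.det f • (1 : End k V) :=
    Algebra.algebraMap_eq_smul_one _
  rw [h1, h2] at hCH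
  exact hCH

/-- If `f² - a f + c = 0` on a rank 2 space and `f` is not a scalar, then `det f = c` and
`tr f = a`. -/
theorem det_trace_of_quadratic (b : Basis (Fin 2) k V) (f : End k V) (a c : k)
    (hrel : f * f - a • f + c • (1 : End k V) = 0)
    (hns : ¬ ∃ s : k, ∀ x : V, f x = s • x) :
    LinearMap.det f = c ∧ LinearMap.trace k V f = a := by
  have hCH := quadratic_of_basis b f
  have hnt : Nontrivial V := ⟨⟨b 0, 0, b.ne_zero 0⟩⟩
  have hsub : (LinearMap.trace k V f - a) • f = (LinearMap.det f - c) • (1 : End k V) := by
    have : (LinearMap.trace k V f - a) • f - (LinearMap.det f - c) • (1 : End k V)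
        = (f * f - a • f + c • (1 : End k V))
          - (f * f - LinearMap.trace k V f • f + LinearMap.det f • (1 : End k V)) := by
      rw [sub_smul, sub_smul]; abel
    rw [hrel, hCH, sub_zero] at this
    exact sub_eq_zero.mp this
  have htr : LinearMap.trace k V f = a := by
    by_contra hne
    have hne' : LinearMap.trace k V f - a ≠ 0 := sub_ne_zero.mpr hne
    apply hns
    refine ⟨(LinearMap.trace k V f - a)⁻¹ * (LinearMap.det f - c), fun x => ?_⟩
    have h := congrArg (fun g : End k V => g x) hsub
    simp only [LinearMap.smul_apply, Module.End.one_apply] at h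
    rw [mul_smul, ← h, smul_smul, inv_mul_cancel₀ hne', one_smul]
  refine ⟨?_, htr⟩
  rw [htr, sub_self, zero_smul] at hsub
  obtain ⟨x, hx⟩ := exists_ne (0 : V)
  have h := congrArg (fun g : End k V => g x) hsub
  simp only [LinearMap.zero_apply, LinearMap.smul_apply, Module.End.one_apply] at h
  have h0 : LinearMap.det f - c = 0 := by
    by_contra hne
    exact hx ((smul_eq_zero.mp h.symm).resolve_left hne)
  exact sub_eq_zero.mp h0

/-- A scalar endomorphism of a rank two space has determinant the square of the scalar. -/
theorem det_of_forall_smul (b : Basis (Fin 2) k V) (f : End k V) (s : k)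
    (hs : ∀ x : V, f x = s • x) : LinearMap.det f = s ^ 2 := by
  have hfin : Module.Finite k V := Module.Finite.of_basis b
  have hf : f = s • (1 : End k V) := by
    ext x
    simp [hs x]
  rw [hf, LinearMap.det_smul, map_one, mul_one, Module.finrank_eq_card_basis b,
    Fintype.card_fin]

/-- In a rank two space there is a line: a submodule different from `⊥` and `⊤` which is stable
under every scalar map. -/
theorem exists_line (b : Basis (Fin 2) k V) :
    ∃ N : Submodule k V, N ≠ ⊥ ∧ N ≠ ⊤ ∧ ∀ (s : k), ∀ x ∈ N, s • x ∈ N := by
  refine ⟨Submodule.span k {b 0}, ?_, ?_, fun s x hx => Submodule.smul_mem _ s hx⟩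
  · intro h0
    have hmem : b 0 ∈ Submodule.span k {b 0} := Submodule.mem_span_singleton_self _
    rw [h0, Submodule.mem_bot] at hmem
    exact b.ne_zero 0 hmem
  · intro h1
    have hmem : b 1 ∈ Submodule.span k {b 0} := by rw [h1]; trivial
    rw [Submodule.mem_span_singleton] at hmem
    obtain ⟨c, hc⟩ := hmem
    have h2 := congrArg (fun v => b.repr v 1) hc
    simp only [map_smul, Basis.repr_self, Finsupp.smul_apply, smul_eq_mul] at h2
    rw [Finsupp.single_eq_same, Finsupp.single_eq_of_ne (by decide), mul_zero] at h2
    exact zero_ne_one h2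

end Fermat.Agent.Ribet.H704
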