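import Fermat.Agent.Ribet.Spec
import Fermat.Agent.Ribet.H704.LinAlg
import Fermat.Agent.Lib.Frob.Glue
import Fermat.Agent.Lib.Frob.A1.Main
import Fermat.Agent.Lib.Frob.A2.Main
import Fermat.Agent.S59.H127.TateE
import Fermat.Agent.S13.H164.Frey

/-!
# RIBET / DETF + NMT (helper704), part 2: the `p`-torsion of the Frey curve

* `frey_isElliptic`, `card_freyTorsion : #E[p] = p²`, `nonempty_basis_freyTorsion`;
* `exists_finite_level_frey` : `E[p]` is fixed by the Galois group of a finite extension;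
* `frey_frobRelation` : the Frobenius relation `τ² - a_ℓ τ + ℓ = 0` on `E[p]` for `ℓ ≥ 5`
  a prime of good reduction of `P.freyCurveInt`, `ℓ ≠ p` (from `Lib.Frob`);
* `det_frob_of_not_scalar` : a non-scalar Frobenius at such an `ℓ` has determinant `ℓ`.
-/

set_option autoImplicit false

open WeierstrassCurve WeierstrassCurve.Affine WeierstrassCurve.Affine.Point

namespace Fermat.Agent.Ribet.H704

open Fermat.Agent.Ribet.Spec (GQ FreyTorsion)

/-- The Frey curve over `ℚ̄` is an elliptic curve. -/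
theorem frey_isElliptic (P : FreyPackage) : (P.freyCurve⁄(AlgebraicClosure ℚ)).IsElliptic := by
  constructor
  rw [isUnit_iff_ne_zero]
  exact Fermat.Agent.S13.H164.frey_baseChange_Δ_ne_zero P

/-- `#E[p] = p²` for the Frey curve. -/
theorem card_freyTorsion (P : FreyPackage) : Nat.card (FreyTorsion P) = P.p ^ 2 := by
  have := frey_isElliptic P
  exact Fermat.Agent.S59.H127.card_torsion_eq (P.freyCurve⁄(AlgebraicClosure ℚ)) P.p

/-- `E[p]` is free of rank two over `𝔽_p`. -/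
theorem nonempty_basis_freyTorsion (P : FreyPackage) :
    Nonempty (Module.Basis (Fin 2) (ZMod P.p) (FreyTorsion P)) := by
  have : Fact P.p.Prime := ⟨P.pp⟩
  have hcard := card_freyTorsion P
  have hfin : Finite (FreyTorsion P) :=
    Nat.finite_of_card_ne_zero (by rw [hcard]; exact pow_ne_zero _ P.pp.ne_zero)
  have hMf : Module.Finite (ZMod P.p) (FreyTorsion P) := Module.Finite.of_finite
  have hrank : Module.finrank (ZMod P.p) (FreyTorsion P) = 2 := by
    have := Module.natCard_eq_pow_finrank (K := ZMod P.p) (V := FreyTorsion P)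
    rw [hcard, Nat.card_zmod] at this
    exact (Nat.pow_right_injective P.pp.two_le this).symm
  exact ⟨Module.finBasisOfFinrankEq (ZMod P.p) (FreyTorsion P) hrank⟩

/-- `E[p]` is fixed by the Galois group of a finite extension of `ℚ`. -/
theorem exists_finite_level_frey (P : FreyPackage) :
    ∃ L : IntermediateField ℚ (AlgebraicClosure ℚ), FiniteDimensional ℚ L ∧
      ∀ σ : GQ, (∀ x ∈ L, σ x = x) → ∀ x : FreyTorsion P, σ • x = x := by
  have := frey_isElliptic P
  obtain ⟨L, hL, h⟩ := Fermat.Agent.S59.H127.exists_finite_level P.freyCurve P.p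
    P.pp.one_le
  refine ⟨L, hL, fun σ hσ x => ?_⟩
  apply Subtype.ext
  have hx : (P.p : ℕ) • (x : (P.freyCurve⁄(AlgebraicClosure ℚ)).Point) = 0 := by
    have := x.2
    rw [Submodule.mem_torsionBy_iff, natCast_zsmul] at this
    exact this
  exact h σ hσ x hx

/-- Transport of `Lib.Frob.FrobRelation` along an equality of curves. -/
theorem frobRelation_of_eq (E : WeierstrassCurve ℚ) (W : WeierstrassCurve ℤ)
    (hE : E = W.map (Int.castRingHom ℚ)) {ℓ : ℕ} (hℓ : ℓ.Prime) (h5 : 5 ≤ ℓ)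
    (hgood : W.IsGoodPrimeFor ℓ) (A : ValuationSubring (AlgebraicClosure ℚ))
    (hA : A.LiesOverPrime ℓ) (τ : GQ) (hτ : A.IsFrobeniusAt τ ℓ) (n : ℕ) (hn : 0 < n)
    (hℓn : ¬ ℓ ∣ n) (x : (E⁄(AlgebraicClosure ℚ)).Point) (hx : n • x = 0) :
    τ • τ • x - W.apOfModel ℓ • τ • x + (ℓ : ℤ) • x = 0 := by
  subst hE
  exact Fermat.Agent.Lib.Frob.frobRelation_of_parts Fermat.Agent.Lib.Frob.frobRelationFin
    Fermat.Agent.Lib.Frob.reductionData W ℓ hℓ h5 hgood A τ hA hτ n hn hℓn x hx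

/-- **Frobenius relation on `E[p]`** for the Frey curve. -/
theorem frey_frobRelation (P : FreyPackage) {ℓ : ℕ} (hℓ : ℓ.Prime) (h5 : 5 ≤ ℓ)
    (hℓp : ℓ ≠ P.p) (hgood : P.freyCurveInt.IsGoodPrimeFor ℓ)
    (A : ValuationSubring (AlgebraicClosure ℚ)) (hA : A.LiesOverPrime ℓ) (τ : GQ)
    (hτ : A.IsFrobeniusAt τ ℓ) (x : FreyTorsion P) :
    τ • τ • x - P.freyCurveInt.apOfModel ℓ • τ • x + (ℓ : ℤ) • x = 0 := by
  apply Subtype.ext
  have hx : (P.p : ℕ) • (x : (P.freyCurve⁄(AlgebraicClosure ℚ)).Point) = 0 := by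
    have := x.2
    rw [Submodule.mem_torsionBy_iff, natCast_zsmul] at this
    exact this
  have hℓn : ¬ ℓ ∣ P.p := fun h => hℓp ((Nat.prime_dvd_prime_iff_eq hℓ P.pp).mp h)
  exact frobRelation_of_eq P.freyCurve P.freyCurveInt (Fermat.Agent.S13.H164.freyCurve_eq_map P)
    hℓ h5 hgood A hA τ hτ P.p P.hppos hℓn x hx

/-- The Frobenius relation as an identity of endomorphisms of `E[p]`. -/
theorem frey_frobRelation_end (P : FreyPackage) {ℓ : ℕ} (hℓ : ℓ.Prime) (h5 : 5 ≤ ℓ)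
    (hℓp : ℓ ≠ P.p) (hgood : P.freyCurveInt.IsGoodPrimeFor ℓ)
    (A : ValuationSubring (AlgebraicClosure ℚ)) (hA : A.LiesOverPrime ℓ) (τ : GQ)
    (hτ : A.IsFrobeniusAt τ ℓ) :
    galoisRepModuleEnd (S := ℚ) (K := AlgebraicClosure ℚ) P.freyCurve P.p τ *
        galoisRepModuleEnd (S := ℚ) (K := AlgebraicClosure ℚ) P.freyCurve P.p τ
      - ((P.freyCurveInt.apOfModel ℓ : ℤ) : ZMod P.p) •
        galoisRepModuleEnd (S := ℚ) (K := AlgebraicClosure ℚ) P.freyCurve P.p τ
      + ((ℓ : ℕ) : ZMod P.p) • (1 : Module.End (ZMod P.p) (FreyTorsion P)) = 0 := by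
  ext x
  have h := frey_frobRelation P hℓ h5 hℓp hgood A hA τ hτ x
  simp only [LinearMap.add_apply, LinearMap.sub_apply, Module.End.mul_apply,
    LinearMap.smul_apply, Module.End.one_apply, galoisRepModuleEnd_apply, LinearMap.zero_apply]
  rw [Int.cast_smul_eq_zsmul, ← Int.cast_natCast (R := ZMod P.p) ℓ, Int.cast_smul_eq_zsmul]
  exact congrArg Subtype.val h

/-- **A non-scalar Frobenius at a good prime `ℓ ≥ 5`, `ℓ ≠ p`, has determinant `ℓ`.** -/
theorem det_frob_of_not_scalar (P : FreyPackage) {ℓ : ℕ} (hℓ : ℓ.Prime) (h5 : 5 ≤ ℓ)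
    (hℓp : ℓ ≠ P.p) (hgood : P.freyCurveInt.IsGoodPrimeFor ℓ)
    (A : ValuationSubring (AlgebraicClosure ℚ)) (hA : A.LiesOverPrime ℓ) (τ : GQ)
    (hτ : A.IsFrobeniusAt τ ℓ)
    (hns : ¬ ∃ s : ZMod P.p, ∀ x : FreyTorsion P, τ • x = s • x) :
    LinearMap.det (galoisRepModuleEnd (S := ℚ) (K := AlgebraicClosure ℚ) P.freyCurve P.p τ)
      = ((ℓ : ℕ) : ZMod P.p) := by
  have : Fact P.p.Prime := ⟨P.pp⟩
  obtain ⟨b⟩ := nonempty_basis_freyTorsion P
  exact (det_trace_of_quadratic b _ _ _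
    (frey_frobRelation_end P hℓ h5 hℓp hgood A hA τ hτ) hns).1

end Fermat.Agent.Ribet.H704
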