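import Fermat.Agent.Ribet.H704.FreyBasic
import Fermat.Agent.S13

/-!
# RIBET / DETF + NMT (helper704), part 3: the Galois image on `E[p]` is not scalar

For EVERY Frey package (no irreducibility hypothesis) some element of `G_ℚ` does not act on
`E[p]` through a scalar.  Proof: otherwise every line is Galois-stable, so `E[p]` is reducible,
the landed S13 gives a cofixed line `N`, a scalar action which is trivial on `E[p]/N` is trivial,
and the Frey curve would have a nonzero rational `p`-torsion point, which the landed T7 of row S13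
excludes.
-/

set_option autoImplicit false

open WeierstrassCurve WeierstrassCurve.Affine WeierstrassCurve.Affine.Point

namespace Fermat.Agent.Ribet.H704

open Fermat.Agent.Ribet.Spec (GQ FreyTorsion)

/-- **NONSC.** Some element of `G_ℚ` is not a scalar on the `p`-torsion of the Frey curve. -/
theorem exists_not_scalar (P : FreyPackage) :
    ∃ h : GQ, ¬ ∃ s : ZMod P.p, ∀ x : FreyTorsion P, h • x = s • x := by
  have : Fact P.p.Prime := ⟨P.pp⟩
  by_contra H
  push Not at H
  obtain ⟨b⟩ := nonempty_basis_freyTorsion P
  -- every line is stable, hence `E[p]` is reducible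
  have hred : ¬ GaloisRepIsIrreducible (K := AlgebraicClosure ℚ) ℚ P.freyCurve P.p := by
    rintro ⟨-, hirr⟩
    obtain ⟨N, hbot, htop, hN⟩ := exists_line b
    have hst : IsGaloisStable (K := AlgebraicClosure ℚ) ℚ N := by
      intro σ x hx
      obtain ⟨s, hs⟩ := H σ
      rw [hs x]
      exact hN s x hx
    rcases hirr N hst with h0 | h1
    · exact hbot h0
    · exact htop h1
  obtain ⟨N, -, -, htop, hcof⟩ := Fermat.Agent.S13.result P hred
  -- a point outside `N`
  obtain ⟨x, hx⟩ : ∃ x : FreyTorsion P, x ∉ N := by
    by_contra hall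
    push Not at hall
    exact htop (eq_top_iff.mpr fun y _ => hall y)
  -- every `σ` acts trivially
  have htriv : ∀ (σ : GQ) (y : FreyTorsion P), σ • y = y := by
    intro σ y
    obtain ⟨s, hs⟩ := H σ
    have h1 : s = 1 := by
      by_contra hne
      have h2 := hcof σ x
      rw [hs x] at h2
      have h3 : (s - 1) • x ∈ N := by rwa [sub_smul, one_smul]
      have h4 : s - 1 ≠ 0 := sub_ne_zero.mpr hne
      have h5 := N.smul_mem (s - 1)⁻¹ h3
      rw [smul_smul, inv_mul_cancel₀ h4, one_smul] at h5
      exact hx h5
    rw [hs y, h1, one_smul]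
  have hb0 : b 0 = 0 := Fermat.Agent.S13.H13.frey_T7 P (b 0) (fun σ => htriv σ (b 0))
  exact b.ne_zero 0 hb0

end Fermat.Agent.Ribet.H704
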