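/-
# RIBET row 38, WALL-p, (S4) CORE-OUT, WILD half: the TWO-LEVEL NODE lemma (frozen Prop)
# (sub-architect helper704)

Abstract (Mathlib + I6 vocabulary only) core of `WildChartStatement` (`WildSpec.lean`) at ONE
crossing point.  `R₁ ⊆ R₂` the chart node rings of the tame and of the wild level, `L₁ = K₁(h)`,
`L₂ = K₂(h)` the covers, `h ^ p = g`, `g ∈ R₁` as in `CoverNodeStatement`.

Hypotheses on `u₁ ∈ L₁` (`= f' · D ^ i`): horizontally `p`-divisible, and `(V)`: at EVERY cover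
node ring `R' ⊆ L₁` over `R₁` the two branch valuations of `u₁` are congruent modulo `p`
(`H132.instC_global`).  `G₂ ∈ K₂` (`= f₂ · D₂ ^ i`) horizontally `p`-divisible with
`G₂ = c₂ · u₁ · b ^ p` in `L₂`, `c₂ = unit · π₂ ^ a`.  Conclusion: `G₂` is pure in `R₂`.

Proof: `H939.coverNode2` gives `R' ⊆ R''`; `(V)` + `H7.nodePureTame` (A3): `u₁` pure in `R'`;
`π₁ = η₂ π₂ ^ e₂`: `u₁` pure in `R''`, hence `G₂` pure in `R''`; `PureDescentStatement` (A2):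
`G₂` pure in `R₂`.
-/
import Fermat.Agent.Ribet.H704.CoreOutSpec

set_option autoImplicit false

namespace Fermat.Agent.Ribet.H704.CoreOut

open Fermat.Agent.Ribet.H704 I6

/-- **TWO-LEVEL NODE.** -/
def TwoLevelNodeStatement : Prop :=
  ∀ (R₁ R₂ K₁ K₂ L₁ L₂ : Type)
    [CommRing R₁] [IsDomain R₁] [IsIntegrallyClosed R₁] [IsNoetherianRing R₁] [IsLocalRing R₁]
    [CommRing R₂] [IsDomain R₂] [IsIntegrallyClosed R₂] [IsNoetherianRing R₂] [IsLocalRing R₂]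
    [Field K₁] [Algebra R₁ K₁] [IsFractionRing R₁ K₁]
    [Field K₂] [Algebra R₂ K₂] [IsFractionRing R₂ K₂]
    [Field L₁] [Algebra K₁ L₁] [Algebra R₁ L₁] [IsScalarTower R₁ K₁ L₁]
    [Field L₂] [Algebra K₂ L₂] [Algebra R₂ L₂] [IsScalarTower R₂ K₂ L₂]
    [Algebra R₁ R₂] [Algebra L₁ L₂] [Algebra R₁ L₂] [IsScalarTower R₁ R₂ L₂]
    [IsScalarTower R₁ L₁ L₂]
    (𝔭₁ 𝔭₂ : Ideal R₁) (π₁ x₁ y₁ : R₁), IsNode 𝔭₁ 𝔭₂ π₁ x₁ y₁ →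
    ∀ (𝔮₁ 𝔮₂ : Ideal R₂) (π₂ x₂ y₂ : R₂), IsNode 𝔮₁ 𝔮₂ π₂ x₂ y₂ →
    IsAlgClosed (IsLocalRing.ResidueField R₁) → IsAlgClosed (IsLocalRing.ResidueField R₂) →
    Function.Injective (algebraMap R₁ R₂) →
    (∀ a : R₁, algebraMap R₁ R₂ a ∈ 𝔮₁ ↔ a ∈ 𝔭₁) →
    (∀ a : R₁, algebraMap R₁ R₂ a ∈ 𝔮₂ ↔ a ∈ 𝔭₂) →
    -- `π₁ = η₂ · π₂ ^ e₂`
    ∀ (η₂ : R₂) (e₂ : ℕ), IsUnit η₂ → algebraMap R₁ R₂ π₁ = η₂ * π₂ ^ e₂ →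
    -- the tame level contains `ζ_p`
    ∀ (p : ℕ), p.Prime → ∀ ζ : R₁, IsPrimitiveRoot ζ p →
    ∀ (lam ε η : R₁) (e : ℕ), lam = ζ - 1 → IsUnit ε → lam ^ (p - 1) = (p : R₁) * ε →
      IsUnit η → 0 < e → lam = η * π₁ ^ e →
    -- the cover
    ∀ g : R₁, g ∉ 𝔭₁ → g ∉ 𝔭₂ → HorDiv π₁ p g →
      (∀ k : ℕ, ∃ h r t : R₁, r ∉ 𝔭₁ ∧ g * r ^ p - h ^ p = π₁ ^ k * t) →
      (∀ k : ℕ, ∃ h r t : R₁, r ∉ 𝔭₂ ∧ g * r ^ p - h ^ p = π₁ ^ k * t) →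
    ∀ h : L₁, h ^ p = algebraMap R₁ L₁ g → IntermediateField.adjoin K₁ ({h} : Set L₁) = ⊤ →
      IntermediateField.adjoin K₂ ({algebraMap L₁ L₂ h} : Set L₂) = ⊤ →
    -- the unit pair at the tame level
    ∀ (N : ℕ), Nat.Coprime N p → ∀ D D' : R₁, IsUnitPair 𝔭₁ 𝔭₂ π₁ D D' N →
    -- `u₁`
    ∀ u₁ : L₁, u₁ ≠ 0 → HorDivVal (R := R₁) L₁ π₁ p u₁ →
      (∀ (R' : Subalgebra R₁ L₁) (_ : IsLocalRing R'), IsIntegrallyClosed R' →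
        IsNoetherianRing R' → IsFractionRing R' L₁ →
        IsNode (𝔭₁.map (algebraMap R₁ R')) (𝔭₂.map (algebraMap R₁ R')) (algebraMap R₁ R' π₁)
          (algebraMap R₁ R' x₁) (algebraMap R₁ R' y₁) →
        (∀ a : R₁, algebraMap R₁ R' a ∈ 𝔭₁.map (algebraMap R₁ R') → a ∈ 𝔭₁) →
        (∀ a : R₁, algebraMap R₁ R' a ∈ 𝔭₂.map (algebraMap R₁ R') → a ∈ 𝔭₂) →
        ∀ w₁ w₂ : ℤ,
          ValAt L₁ (𝔭₁.map (algebraMap R₁ R')) (algebraMap R₁ R' π₁) u₁ w₁ →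
          ValAt L₁ (𝔭₂.map (algebraMap R₁ R')) (algebraMap R₁ R' π₁) u₁ w₂ →
          (p : ℤ) ∣ w₁ - w₂) →
    -- `G₂ = c₂ · u₁ · b ^ p`
    ∀ (G₂ c₂ : K₂) (b : L₂), G₂ ≠ 0 → b ≠ 0 →
      (∃ (η₃ : R₂) (a : ℤ), IsUnit η₃ ∧ c₂ = algebraMap R₂ K₂ η₃ * algebraMap R₂ K₂ π₂ ^ a) →
      algebraMap K₂ L₂ G₂ = algebraMap K₂ L₂ c₂ * algebraMap L₁ L₂ u₁ * b ^ p →
      HorDivVal K₂ π₂ p G₂ →
      ∃ (d : K₂) (a : ℤ) (ε₂ : R₂), d ≠ 0 ∧ IsUnit ε₂ ∧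
        G₂ = algebraMap R₂ K₂ π₂ ^ a * algebraMap R₂ K₂ ε₂ * d ^ p

end Fermat.Agent.Ribet.H704.CoreOut
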